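import Fermat.Agent.DeligneSerre.X1.GoodRed.Integers
import Fermat.Agent.Igusa.GoodRed.Main
import Fermat.Agent.JacCharts.Laurent

/-!
# Good reduction of `X₁(M)` at a place over `p ∤ M`

The fibre field `x1FieldC k M` has degree `[SL(2, ℤ) : ± Γ₁(M)]` over `k(j)` and its functions
with bounded poles lift, which gives a Laurent good reduction datum.
-/

set_option autoImplicit false

noncomputable section

open UpperHalfPlane hiding I
open Function Polynomial CongruenceSubgroup AlgebraicCurve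
open scoped MatrixGroups

namespace FermatAgent.DeligneSerre.X1

open FermatAgent.Igusa FermatAgent.Igusa.Down FermatAgent.ModFun ModularCurve

local notation "Qb" => AlgebraicClosure ℚ

variable {L M : ℕ} [NeZero L] [NeZero M]

section Lift

variable {R : Subring ℂ} {k : Type*} [Field k] {ρ : R →+* k}

/-- Polynomials in the generators come from invariant residual functions. -/
theorem exists_res_of_adjoin (hρ : Surjective ρ) (hR : HasRoots L R) (hL : (L : ℂ)⁻¹ ∈ R)
    (hML : M ∣ L) (hD : decompGroup (M := L) ρ = ⊤) {a : LaurentSeries k}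
    (ha : a ∈ Algebra.adjoin k (x1Gens k M)) :
    ∃ x : Res L R ρ, (∀ γ ∈ gam M, resSmul ρ hD γ x = x) ∧ resExp L R ρ x = qExpand k L a := by
  have hfam : ∀ i : Option (GenIdx M), ∃ x : Res L R ρ,
      (∀ γ ∈ gam M, resSmul ρ hD γ x = x) ∧ resExp L R ρ x = qExpand k L (famSer k M i) :=
    fun i => ⟨toRes L R ρ (genFam hR hL hML i),
      fun γ hγ => by rw [resSmul_toRes, smul_genFam hR hL hML i hγ],
      by rw [resExp_toRes, redExp_genFam]⟩
  induction ha using Algebra.adjoin_induction with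
  | mem a ha =>
    rcases ha with (rfl | rfl) | ⟨i, rfl⟩
    · refine ⟨resPoly L hρ X, fun γ _ => resSmul_resPoly hρ hD γ X, ?_⟩
      rw [← gevC_X k]
      exact RingHom.congr_fun (resExp_comp_resPoly hρ) X
    · exact hfam none
    · exact hfam (some i)
  | algebraMap c =>
    refine ⟨resPoly L hρ (C c), fun γ _ => resSmul_resPoly hρ hD γ _, ?_⟩
    rw [algebraMap_laurentSeries_eq_single, ← HahnSeries.C_apply, ← gevC_C]
    exact RingHom.congr_fun (resExp_comp_resPoly hρ) (C c)
  | add a b _ _ ha hb =>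
    obtain ⟨x, hx, he⟩ := ha
    obtain ⟨y, hy, he'⟩ := hb
    exact ⟨x + y, fun γ hγ => by rw [map_add, hx γ hγ, hy γ hγ],
      by rw [map_add, he, he', map_add]⟩
  | mul a b _ _ ha hb =>
    obtain ⟨x, hx, he⟩ := ha
    obtain ⟨y, hy, he'⟩ := hb
    exact ⟨x * y, fun γ hγ => by rw [map_mul, hx γ hγ, hy γ hγ],
      by rw [map_mul, he, he', map_mul]⟩

/-- A function of the fibre integral over `k[j]` is an invariant residual function. -/
theorem exists_res_gam (hρ : Surjective ρ) (hR : HasRoots L R) (hL : (L : ℂ)⁻¹ ∈ R)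
    (hML : M ∣ L) [IsIntegrallyClosed (Res L R ρ)] (hD : decompGroup (M := L) ρ = ⊤)
    {fb : LaurentSeries k} (hfield : fb ∈ x1FieldC k M)
    (hint : ∃ p : k[X][X], p.Monic ∧ p.eval₂ (gevC k) fb = 0) :
    ∃ x : Res L R ρ, resExp L R ρ x = qExpand k L fb ∧
      ∀ γ ∈ gam M, resSmul ρ hD γ x = x := by
  obtain ⟨a, ha, b, hb, hab⟩ := IntermediateField.mem_adjoin_iff_div.mp hfield
  rcases eq_or_ne b 0 with hb0 | hb0
  · refine ⟨0, ?_, fun γ _ => map_zero _⟩
    rw [hab, hb0, div_zero, map_zero, map_zero]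
  obtain ⟨num, hnum, hnum'⟩ := exists_res_of_adjoin hρ hR hL hML hD ha
  obtain ⟨den, hden, hden'⟩ := exists_res_of_adjoin hρ hR hL hML hD hb
  have hb' : qExpand k L b ≠ 0 := (map_ne_zero_iff _ (qExpand_injective (R := k) L)).mpr hb0
  have hden0 : den ≠ 0 := fun h => hb' (by rw [← hden', h, map_zero])
  obtain ⟨p, hpm, hp⟩ := hint
  have hdiv : resExp L R ρ num / resExp L R ρ den = qExpand k L fb := by
    rw [hnum', hden', hab, map_div₀]
  obtain ⟨x, hx⟩ := exists_eq_div_of_integral (resExp L R ρ) (resExp_injective L R ρ)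
    (resPoly L hρ) num den hpm (by
      rw [hdiv, resExp_comp_resPoly, ← hom_eval₂, hp, map_zero])
  refine ⟨x, hx.trans hdiv, fun γ hγ => ?_⟩
  have hmul : x * den = num := resExp_injective L R ρ (by
    rw [map_mul, hx, div_mul_cancel₀]
    rw [hden']
    exact hb')
  apply mul_right_cancel₀ hden0
  have h1 : resSmul ρ hD γ (x * den) = num := by rw [hmul, hnum γ hγ]
  rw [map_mul, hden γ hγ] at h1
  rw [h1, hmul]

/-- Lifting of functions of the fibre with bounded poles. -/
theorem exists_lift_gam [IsAlgClosed k] (hρ : Surjective ρ) (hR : HasRoots L R)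
    (hL : (L : ℂ)⁻¹ ∈ R) (h3 : 3 ≤ L) (h23 : 2 ∣ L ∨ 3 ∣ L) (hML : M ∣ L) :
    ∃ n₀ : ℕ, ∀ (n : ℕ) (fb : LaurentSeries k), n₀ ≤ n → fb ∈ x1FieldC k M →
      (∃ p : k[X][X], p.Monic ∧ p.eval₂ (gevC k) fb = 0) →
      (∃ p : k[X][X], p.Monic ∧
        p.eval₂ (eval₂RingHom HahnSeries.C (jqModC k)⁻¹) (fb / jqModC k ^ n) = 0) →
      ∃ (g : intFun L R) (s : LaurentSeries R) (F : R[X][X]),
        (∀ γ ∈ gam M, γ • g = g) ∧ intExp L R g = qExpand R L s ∧ coeffMap ρ s = fb ∧
        F.Monic ∧ F.eval₂ (gevC R) s = 0 ∧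
        ∀ i ≤ F.natDegree, (F.coeff i).natDegree ≤ n * (F.natDegree - i) := by
  classical
  have := isIntegrallyClosed_res ρ hR hL hρ h3 h23
  have hD := decompGroup_eq_top ρ hR hL
  have hker := faithfulAction_of_hyp hR hL h3 h23 hD
  obtain ⟨n₀, hn₀⟩ := exists_exact_lift (R := R) ρ hR hL h3 (gam M) (gamma_le_gam hML)
    (neg_one_mem_gam M)
  refine ⟨n₀, fun n fb hn hfield hint hinf => ?_⟩
  obtain ⟨x, hx, hxfix⟩ := exists_res_gam hρ hR hL hML hD hfield hint
  obtain ⟨f, hf, rfl⟩ := exists_invariant_lift hD hρ hker (gam M) hxfix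
  have hbd : ∀ (γ : SL(2, ℤ)) (m : ℤ), m < -((n : ℤ) * L) →
      (redExp L R ρ (γ • f)).coeff m = 0 := by
    intro γ m hm
    rw [← resExp_toRes L R ρ, ← resSmul_toRes ρ hD]
    exact bdd_resExp_smul hρ hD hx hinf γ m hm
  obtain ⟨g, hg, hgf, hgb⟩ := hn₀ n hn f hf hbd
  obtain ⟨s, hs⟩ := exists_series_gam g hg
  obtain ⟨F, hFm, hFd, hF, hFb⟩ := exists_coset_relation (gam M) g hg
  refine ⟨g, s, F, hg, hs, ?_, hFm, ?_, fun i hi => ?_⟩
  · apply qExpand_injective (R := k) L
    rw [← hx, ← hgf, resExp_toRes, redExp, RingHom.comp_apply, hs, coeffMap_qExpand]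
  · apply qExpand_injective (R := R) L
    have h := congrArg (intExp L R) hF
    rw [hom_eval₂, show (intExp L R).comp (polyInt L R) = (qExpand R L).comp (gevC R) from
      RingHom.ext intExp_polyInt, hs, map_zero, ← hom_eval₂] at h
    rw [h, map_zero]
  · refine natDegree_le_of_bdd (L := L) ((hFb ((n : ℤ) * L) (fun γ m hm => hgb γ m hm) i).mono ?_)
    rw [hFd] at hi ⊢
    push_cast [Nat.cast_sub hi]
    exact le_of_eq (by ring)

end Lift

variable (A : ValuationSubring Qb) {p : ℕ} (hp : p.Prime) (hA : A.LiesOverPrime p) (h5 : 5 < M)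
  (hpM : ¬ p ∣ M)

/-- `j` as an integer of `x1Bar M`. -/
def x1IntT (A : ValuationSubring Qb) (M : ℕ) [NeZero M] : x1Int A M :=
  ⟨⟨jqModC Qb, by rw [x1Bar, laurentBaseChange_x1]; exact jqModC_mem_x1FieldC Qb M⟩,
    mem_lsInt_of_coeff A _ fun n => by
      show (jqModC Qb).coeff n ∈ A
      rw [← coeffMap_jqModC A.subtype, coeffMap_coeff]
      exact SetLike.coe_mem _⟩

theorem coe_x1Red_t : (x1Red A hp hA h5 hpM (x1IntT A M) : LaurentSeries (IsLocalRing.ResidueField A)) =
    jqModC (IsLocalRing.ResidueField A) := by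
  rw [coe_x1Red, lsRed_of_eq A _ (x1IntT A M) (s := jqModC A) (coeffMap_jqModC A.subtype).symm,
    lsResidue, coeffMap_jqModC]

include hp hA h5 hpM in
theorem finrank_x1_fibre :
    Module.finrank (IntermediateField.adjoin (IsLocalRing.ResidueField A)
      {x1Red A hp hA h5 hpM (x1IntT A M)}) (x1FieldC (IsLocalRing.ResidueField A) M) =
      (gam M).index := by
  have : Fact p.Prime := ⟨hp⟩
  have := infinite_residueField A
  exact finrank_x1FieldC (L := auxLevel M p) (ρ := cRes A) (cRes_surjective A) (hasRoots_cRing A _)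
    (inv_natCast_mem_cRing A hp hA (not_dvd_auxLevel hp hpM)) (dvd_mul_right M _) h5 rfl _
    (coe_x1Red_t A hp hA h5 hpM)

include h5 in
theorem finrank_x1Bar (t : x1Bar M) (ht : (t : LaurentSeries Qb) = jqModC Qb) :
    Module.finrank (IntermediateField.adjoin Qb {t}) (x1Bar M) = (gam M).index := by
  let R1 : Subring ℂ := (qbarToC : Qb →+* ℂ).range
  let e : Qb ≃+* R1 :=
    RingEquiv.ofBijective (qbarToC : Qb →+* ℂ).rangeRestrict
      ⟨fun a b h => (qbarToC : Qb →+* ℂ).injective (congrArg Subtype.val h),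
        (qbarToC : Qb →+* ℂ).rangeRestrict_surjective⟩
  have hR1 : HasRoots M R1 := fun r => by
    obtain ⟨⟨z, hz⟩, hze⟩ := RingHom.mem_range.mp (hasRoots_cRing (⊤ : ValuationSubring Qb) M r)
    exact ⟨z, hze⟩
  exact finrank_x1FieldC (L := M) (R := R1) (ρ := (e.symm : R1 →+* Qb)) e.symm.surjective hR1
    ⟨(M : Qb)⁻¹, by simp⟩ dvd_rfl h5 (laurentBaseChange_x1 Qb M) t ht

include h5 in
theorem isFunctionField1_x1Bar : Curve.IsFunctionField1 Qb (x1Bar M) := by
  set t : x1Bar M :=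
    ⟨jqModC Qb, by rw [x1Bar, laurentBaseChange_x1]; exact jqModC_mem_x1FieldC Qb M⟩
  have : FiniteDimensional (IntermediateField.adjoin Qb {t}) (x1Bar M) :=
    Module.finite_of_finrank_pos (by rw [finrank_x1Bar h5 t rfl]; exact index_gam_pos M)
  exact Curve.IsFunctionField1.of_finiteDimensional (transcendental_jqModC_coe Qb t rfl)

include hp hA h5 hpM in
set_option maxHeartbeats 400000 in
theorem isFunctionField1_x1_fibre :
    Curve.IsFunctionField1 (IsLocalRing.ResidueField A)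
      (x1FieldC (IsLocalRing.ResidueField A) M) :=
  have : FiniteDimensional (IntermediateField.adjoin (IsLocalRing.ResidueField A)
      {x1Red A hp hA h5 hpM (x1IntT A M)}) (x1FieldC (IsLocalRing.ResidueField A) M) :=
    Module.finite_of_finrank_pos (by
      rw [finrank_x1_fibre A hp hA h5 hpM]; exact index_gam_pos M)
  Curve.IsFunctionField1.of_finiteDimensional
    (t := x1Red A hp hA h5 hpM (x1IntT A M))
    (transcendental_jqModC_coe _ _ (coe_x1Red_t A hp hA h5 hpM))

include hp hA h5 hpM in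
set_option maxHeartbeats 1000000 in
theorem exists_lift_x1 : ∃ n₀ : ℕ, ∀ (n : ℕ) (fb : x1FieldC (IsLocalRing.ResidueField A) M),
    n₀ ≤ n → BoundedPoles (IsLocalRing.ResidueField A) (x1Red A hp hA h5 hpM (x1IntT A M)) n fb →
    ∃ f : x1Int A M, BoundedPoles Qb (x1IntT A M : x1Bar M) n (f : x1Bar M) ∧
      x1Red A hp hA h5 hpM f = fb := by
  have := isAlgClosed_residueField A
  have := isFunctionField1_x1_fibre A hp hA h5 hpM
  have : Fact p.Prime := ⟨hp⟩
  have hR := hasRoots_cRing A (auxLevel M p)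
  have hL := inv_natCast_mem_cRing A hp hA (not_dvd_auxLevel hp hpM)
  obtain ⟨n₀, hn₀⟩ := exists_lift_gam (L := auxLevel M p) (M := M) (ρ := cRes A)
    (cRes_surjective A) hR hL (three_le_auxLevel M p) (two_or_three_dvd_auxLevel M p)
    (dvd_mul_right M _)
  refine ⟨n₀, fun n fb hn hb => ?_⟩
  obtain ⟨⟨q₁, hq₁m, hq₁⟩, ⟨q₂, hq₂m, hq₂⟩⟩ := exists_monic_of_boundedPoles hb
  have hq₁' := congrArg Subtype.val hq₁
  rw [coe_eval₂_aeval, coe_x1Red_t] at hq₁'
  have hq₂' := congrArg Subtype.val hq₂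
  rw [coe_eval₂_aeval] at hq₂'
  push_cast [coe_x1Red_t] at hq₂'
  have hq₁'' : q₁.eval₂ (gevC (IsLocalRing.ResidueField A))
      (fb : LaurentSeries (IsLocalRing.ResidueField A)) = 0 := by
    rw [gevC]; simpa using hq₁'
  obtain ⟨g, s, F, hg, hs, hsr, hFm, hF0, hFd⟩ := hn₀ n (fb : LaurentSeries _) hn fb.2
    ⟨q₁, hq₁m, hq₁''⟩ ⟨q₂, hq₂m, by simpa using hq₂'⟩
  set e : cRing A →+* A := ((cEquiv A).symm : cRing A →+* A)
  have hmem := lsIncl_mem_x1Bar A hR hL (dvd_mul_right M _) h5 hg hs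
  refine ⟨⟨⟨_, hmem⟩, lsIncl_mem_lsInt A _ hmem⟩, ?_, Subtype.ext ?_⟩
  · set ι : cRing A →+* Qb := A.subtype.comp e
    refine boundedPoles_of_relation _ _ n (F.map (mapRingHom ι)) (hFm.map _) (fun i hi => ?_) ?_
    · rw [hFm.natDegree_map] at hi ⊢
      rw [coeff_map, coe_mapRingHom]
      exact natDegree_map_le.trans (hFd i hi)
    · apply Subtype.ext
      rw [coe_eval₂_aeval]
      show (F.map (mapRingHom ι)).eval₂ (gevC Qb) (lsIncl A (coeffMap e s)) = 0
      rw [eval₂_map, lsIncl, coeffMap_coeffMap,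
        show (gevC Qb).comp (mapRingHom ι) = (coeffMap ι).comp (gevC (cRing A))
          from RingHom.ext fun Q => (coeffMap_gevC ι Q).symm,
        ← hom_eval₂, hF0, map_zero]
  · rw [coe_x1Red, lsRed_of_eq A _ ⟨⟨_, hmem⟩, _⟩ (s := coeffMap e s) rfl, lsResidue,
      coeffMap_coeffMap]
    exact hsr

/-- The model of `X₁(M)` at a place over `p ∤ M`. -/
def x1ModelData : ModelData A (IsLocalRing.residue A) (x1Bar M)
    (x1FieldC (IsLocalRing.ResidueField A) M) where
  residue_surjective := IsLocalRing.residue_surjective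
  integers := x1Int A M
  red := x1Red A hp hA h5 hpM
  algebraMap_mem a := mem_lsInt_of_coeff A _ fun n => by
    rw [show ((algebraMap Qb (x1Bar M) (a : Qb) : x1Bar M) : LaurentSeries Qb) =
      lsIncl A (HahnSeries.C a) from (coe_algebraMap_series Qb (a : Qb)).trans
        (FermatAgent.Igusa.coeffMap_C A.subtype a).symm]
    exact coeff_lsIncl_mem A _ n
  red_algebraMap a := Subtype.ext <| by
    rw [coe_x1Red, lsRed_of_eq A _ ⟨algebraMap Qb (x1Bar M) (a : Qb), _⟩
      ((coe_algebraMap_series Qb (a : Qb)).trans (FermatAgent.Igusa.coeffMap_C A.subtype a).symm),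
      lsResidue, FermatAgent.Igusa.coeffMap_C]
    exact (coe_algebraMap_series _ _).symm
  exists_normalize := exists_x1_normalize A hp hA h5 hpM
  t := x1IntT A M
  transcendental := transcendental_jqModC_coe _ _ (coe_x1Red_t A hp hA h5 hpM)
  finrank_eq := (finrank_x1_fibre A hp hA h5 hpM).trans (finrank_x1Bar h5 _ rfl).symm
  exists_lift := exists_lift_x1 A hp hA h5 hpM

/-- The good reduction datum of `X₁(M)` at a place over `p ∤ M`. -/
def x1Datum : JacCharts.GoodReductionDatum A (IsLocalRing.residue A) (x1Bar M)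
    (x1FieldC (IsLocalRing.ResidueField A) M) :=
  have := isAlgClosed_residueField A
  have := isFunctionField1_x1Bar (M := M) h5
  have := isFunctionField1_x1_fibre A hp hA h5 hpM
  (x1ModelData A hp hA h5 hpM).toGoodReductionDatum

theorem coe_x1Datum_red (x : x1Int A M) :
    (((x1Datum A hp hA h5 hpM).red x : x1FieldC (IsLocalRing.ResidueField A) M) :
      LaurentSeries (IsLocalRing.ResidueField A)) = lsRed A (x1Bar M) x := rfl

end FermatAgent.DeligneSerre.X1
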