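import Fermat.Agent.DeligneSerre.X1.GoodRed.Field
import Fermat.Agent.Igusa.Down.Model
import Mathlib.RingTheory.FiniteType

/-!
# Contents

Polynomials over `ℚ̄` in the generators are `ℚ̄`-combinations of integral functions with
coefficients in a noetherian ring, so the largest absolute value of a coefficient at a cusp is
attained; dividing by it gives an integral function with nonzero reduction at `∞`.
-/

set_option autoImplicit false
set_option linter.unusedSectionVars false

noncomputable section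

open UpperHalfPlane hiding I
open Function Polynomial CongruenceSubgroup
open scoped MatrixGroups

namespace FermatAgent.DeligneSerre.X1

open FermatAgent.Igusa FermatAgent.Igusa.Down FermatAgent.ModFun ModularCurve

local notation "Qb" => AlgebraicClosure ℚ

section

variable {K : Type*} [Field K] (A : ValuationSubring K)

/-- A subset of a finitely generated module over a noetherian subring of `A` has a dominant
element. -/
theorem exists_dominant_mem (S : Subalgebra ℤ K) [IsNoetherianRing S] (hS : ∀ x ∈ S, x ∈ A)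
    {ι : Type*} [Finite ι] (c : ι → K) (T : Set K)
    (hT : T ⊆ (Submodule.span S (Set.range c) : Set K)) (hne : ∃ x ∈ T, x ≠ 0) :
    ∃ x₀ ∈ T, x₀ ≠ 0 ∧ ∀ x ∈ T, x / x₀ ∈ A := by
  classical
  have hfgc : (Submodule.span S (Set.range c)).FG := Submodule.fg_span (Set.finite_range c)
  have : IsNoetherian S (Submodule.span S (Set.range c)) := isNoetherian_of_fg_of_noetherian _ hfgc
  have hfg : (Submodule.span S T).FG := hfgc.of_le (Submodule.span_le.mpr hT)
  obtain ⟨T', hT'T, hT'⟩ := (Submodule.fg_span_iff_fg_span_finset_subset _).mp hfg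
  obtain ⟨z, hz, hz0⟩ := hne
  have hne' : T'.Nonempty := by
    rw [Finset.nonempty_iff_ne_empty]
    rintro rfl
    have : z ∈ Submodule.span S T := Submodule.subset_span hz
    rw [hT', Finset.coe_empty, Submodule.span_empty, Submodule.mem_bot] at this
    exact hz0 this
  obtain ⟨x₀, hx₀, hmax⟩ := T'.exists_max_image A.valuation hne'
  have hx0 : x₀ ≠ 0 := by
    intro h
    subst h
    have : Submodule.span S T ≤ ⊥ := by
      rw [hT', Submodule.span_le]
      intro x hx
      have := hmax x hx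
      rw [map_zero, le_zero_iff, map_eq_zero] at this
      simp [this]
    exact hz0 (by simpa using this (Submodule.subset_span hz))
  let N : Submodule S K :=
    { carrier := {x | x / x₀ ∈ A}
      add_mem' := fun {a b} ha hb => by
        simp only [Set.mem_ofPred_eq, add_div] at *
        exact add_mem ha hb
      zero_mem' := by simp
      smul_mem' := fun s x hx => by
        simp only [Set.mem_ofPred_eq] at *
        rw [Subalgebra.smul_def, smul_eq_mul, mul_div_assoc]
        exact mul_mem (hS _ s.2) hx }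
  refine ⟨x₀, hT'T hx₀, hx0, fun x hx => ?_⟩
  have hle : Submodule.span S T ≤ N := by
    rw [hT', Submodule.span_le]
    intro y hy
    show y / x₀ ∈ A
    rw [← A.valuation_le_one_iff, map_div₀,
      div_le_one₀ (zero_lt_iff.mpr (by simpa using hx0))]
    exact hmax y hy
  exact hle (Submodule.subset_span hx)

end

/-- A series in `q` read off an expansion in `q^{1/L}`. -/
theorem exists_qExpand_eq {R : Type*} [CommRing R] (L : ℕ) [NeZero L] (x : LaurentSeries R)
    (h : ∀ n : ℤ, ¬ (L : ℤ) ∣ n → x.coeff n = 0) : ∃ s : LaurentSeries R, x = qExpand R L s := by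
  have hL : (0 : ℤ) < L := Int.natCast_pos.mpr (NeZero.pos L)
  have hb : BddBelow (Function.support fun n : ℤ => x.coeff ((L : ℤ) * n)) := by
    refine ⟨min x.order 0, fun n hn => ?_⟩
    by_contra hlt
    rw [not_le, lt_min_iff] at hlt
    exact hn (HahnSeries.coeff_eq_zero_of_lt_order (by nlinarith))
  refine ⟨HahnSeries.ofSuppBddBelow _ hb, ?_⟩
  ext n
  by_cases hd : (L : ℤ) ∣ n
  · obtain ⟨m, rfl⟩ := hd
    rw [qExpand_coeff_mul]
    rfl
  · rw [qExpand_coeff_of_not_dvd _ _ hd, h n hd]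

variable {L M : ℕ} [NeZero L] [NeZero M]

/-- Invariant functions have expansions in `q`. -/
theorem exists_series_gam {R : Subring ℂ} (f : intFun L R) (hf : ∀ γ ∈ gam M, γ • f = f) :
    ∃ s : LaurentSeries R, intExp L R f = qExpand R L s := by
  refine exists_qExpand_eq L _ fun n hn => Subtype.ext ?_
  have h := qExp_T_inv_smul f n
  rw [hf _ (inv_mem (T_mem_gam M))] at h
  rw [coe_intExp_coeff, Subring.coe_zero]
  by_contra h0
  exact hn ((zetaRoot_zpow_eq_one_iff L n).mp (mul_right_cancel₀ h0 (h.symm.trans (one_mul _).symm)))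

variable (A : ValuationSubring Qb)

/-- `ζ_L` and `1/L` generate the ring of coefficients of the generators. -/
theorem exists_coeffRing {p : ℕ} (hp : p.Prime) (hA : A.LiesOverPrime p) (hpL : ¬ p ∣ L) :
    ∃ S : Subalgebra ℤ Qb, IsNoetherianRing S ∧ (∀ x ∈ S, x ∈ A) ∧
      HasRoots L (S.toSubring.map (qbarToC : Qb →+* ℂ)) ∧
        (L : ℂ)⁻¹ ∈ S.toSubring.map (qbarToC : Qb →+* ℂ) := by
  obtain ⟨⟨z, hz⟩, hze⟩ := RingHom.mem_range.mp (hasRoots_cRing A L 1)
  obtain ⟨⟨u, hu⟩, hue⟩ := RingHom.mem_range.mp (inv_natCast_mem_cRing A hp hA hpL)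
  have hze' : qbarToC z = zetaRoot L := by
    rw [show qbarToC z = aToC A ⟨z, hz⟩ from rfl, hze, ← zpow_one (zetaRoot L),
      zetaRoot_eq_expUnit]
  have hue' : qbarToC u = (L : ℂ)⁻¹ := hue
  set S : Subalgebra ℤ Qb := Algebra.adjoin ℤ ({z, u} : Set Qb) with hS
  have hzS : z ∈ S := Algebra.subset_adjoin (Or.inl rfl)
  have hz0 : z ≠ 0 := fun h => by
    rw [h, map_zero] at hze'
    simpa using (zetaRoot_ne_zero L 1) (by rw [zpow_one, ← hze'])
  have : Algebra.FiniteType ℤ S :=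
    (Subalgebra.fg_iff_finiteType S).mp (Subalgebra.fg_adjoin_finset ({z, u} : Finset Qb) |> fun h => by
      simpa [hS] using h)
  refine ⟨S, Algebra.FiniteType.isNoetherianRing ℤ S, fun x hx => ?_, fun r => ?_, ?_⟩
  · induction hx using Algebra.adjoin_induction with
    | mem x hx => rcases hx with rfl | rfl <;> assumption
    | algebraMap n => exact intCast_mem A n
    | add x y _ _ hx hy => exact add_mem hx hy
    | mul x y _ _ hx hy => exact mul_mem hx hy
  · rw [← zetaRoot_eq_expUnit]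
    refine Subring.mem_map.mpr ⟨z ^ r, ?_, by rw [RingHom.coe_coe, map_zpow₀, hze']⟩
    have hzL : z ^ L = 1 := (qbarToC : Qb →+* ℂ).injective (by
      rw [RingHom.coe_coe, map_pow, map_one, hze', ← zpow_natCast, zetaRoot_zpow_eq_one_iff])
    rw [← Int.emod_add_mul_ediv r L, zpow_add₀ hz0, zpow_mul, zpow_natCast, hzL, one_zpow, mul_one]
    obtain ⟨m, hm⟩ := Int.eq_ofNat_of_zero_le (Int.emod_nonneg r (by
      exact_mod_cast NeZero.ne L : (L : ℤ) ≠ 0))
    rw [hm, zpow_natCast]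
    exact pow_mem hzS m
  · exact Subring.mem_map.mpr ⟨u, Algebra.subset_adjoin (Or.inr rfl), hue'⟩

/-- Combinations over `ℚ̄` of invariant integral functions of level `L` over `R`. -/
def IsCombo (M : ℕ) (R : Subring ℂ) (h : ℍ → ℂ) : Prop :=
  ∃ (ι : Type) (_ : Fintype ι) (c : ι → Qb) (g : ι → intFun L R),
    (∀ i, ∀ γ ∈ gam M, γ • g i = g i) ∧
      ∀ τ, h τ = ∑ i, qbarToC (c i) * (g i : ℍ → ℂ) τ

theorem IsCombo.add {R : Subring ℂ} {h h' : ℍ → ℂ} (hh : IsCombo (L := L) M R h)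
    (hh' : IsCombo (L := L) M R h') : IsCombo (L := L) M R (h + h') := by
  obtain ⟨ι, _, c, g, hg, he⟩ := hh
  obtain ⟨ι', _, c', g', hg', he'⟩ := hh'
  refine ⟨ι ⊕ ι', inferInstance, Sum.elim c c', Sum.elim g g', ?_, fun τ => ?_⟩
  · rintro (i | i) γ hγ
    · exact hg i γ hγ
    · exact hg' i γ hγ
  · simp [he, he', Fintype.sum_sum_type]

theorem IsCombo.mul {R : Subring ℂ} {h h' : ℍ → ℂ} (hh : IsCombo (L := L) M R h)
    (hh' : IsCombo (L := L) M R h') : IsCombo (L := L) M R (h * h') := by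
  obtain ⟨ι, _, c, g, hg, he⟩ := hh
  obtain ⟨ι', _, c', g', hg', he'⟩ := hh'
  refine ⟨ι × ι', inferInstance, fun p => c p.1 * c' p.2, fun p => g p.1 * g' p.2,
    fun p γ hγ => by rw [smul_mul', hg _ γ hγ, hg' _ γ hγ], fun τ => ?_⟩
  rw [Pi.mul_apply, he, he', Finset.sum_mul_sum, Fintype.sum_prod_type]
  refine Finset.sum_congr rfl fun i _ => Finset.sum_congr rfl fun j _ => ?_
  rw [map_mul, Subring.coe_mul, Pi.mul_apply]
  ring

theorem IsCombo.single {R : Subring ℂ} (c : Qb) (g : intFun L R)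
    (hg : ∀ γ ∈ gam M, γ • g = g) :
    IsCombo (L := L) M R (fun τ => qbarToC c * (g : ℍ → ℂ) τ) :=
  ⟨Unit, inferInstance, fun _ => c, fun _ => g, fun _ => hg, fun τ => by simp⟩

theorem IsCombo.mem_cuspRingAt {R : Subring ℂ} {h : ℍ → ℂ} (hh : IsCombo (L := L) M R h)
    (γ : SL(2, ℤ)) : compSmul γ h ∈ cuspRingAt L := by
  obtain ⟨ι, _, c, g, -, he⟩ := hh
  have e : compSmul γ h = ((∑ i, algebraMap ℂ (cuspRingAt L) (qbarToC (c i)) *
      ⟨compSmul γ (g i : ℍ → ℂ), ((mem_intFun L R).mp (g i).2).2 γ |>.1⟩ : cuspRingAt L) : ℍ → ℂ) := by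
    funext τ
    simp [he, Finset.sum_apply]
  rw [e]
  exact SetLike.coe_mem _

theorem IsCombo.coeff_eq {R : Subring ℂ} {h : ℍ → ℂ} {ι : Type} [Fintype ι] {c : ι → Qb}
    {g : ι → intFun L R} (he : ∀ τ, h τ = ∑ i, qbarToC (c i) * (g i : ℍ → ℂ) τ) (γ : SL(2, ℤ))
    (n : ℤ) :
    (qExp L (compSmul γ h)).coeff n =
      ∑ i, qbarToC (c i) * (qExp L (compSmul γ (g i : ℍ → ℂ))).coeff n := by
  have e : compSmul γ h = ((∑ i, algebraMap ℂ (cuspRingAt L) (qbarToC (c i)) *
      ⟨compSmul γ (g i : ℍ → ℂ), ((mem_intFun L R).mp (g i).2).2 γ |>.1⟩ : cuspRingAt L) : ℍ → ℂ) := by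
    funext τ
    simp [he, Finset.sum_apply]
  rw [e, ← qExpHom_apply, map_sum, HahnSeries.coeff_sum]
  refine Finset.sum_congr rfl fun i _ => ?_
  rw [map_mul, AlgHom.commutes, algebraMap_laurentSeries_eq_single,
    HahnSeries.coeff_single_zero_mul, qExpHom_apply]

/-- **Content**: a nonzero combination is a constant times an integral function with nonzero
reduction. -/
theorem IsCombo.exists_content {p : ℕ} (hp : p.Prime) (hA : A.LiesOverPrime p) (hpL : ¬ p ∣ L)
    (S : Subalgebra ℤ Qb) [IsNoetherianRing S] (hS : ∀ x ∈ S, x ∈ A) {h : ℍ → ℂ}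
    (hh : IsCombo (L := L) M (S.toSubring.map (qbarToC : Qb →+* ℂ)) h) (hne : h ≠ 0) :
    ∃ (x₀ : Qb) (f : intFun L (cRing A)), x₀ ≠ 0 ∧ (∀ γ ∈ gam M, γ • f = f) ∧
      redExp L (cRing A) (cRes A) f ≠ 0 ∧ ∀ τ, h τ = qbarToC x₀ * (f : ℍ → ℂ) τ := by
  obtain ⟨ι, _, c, g, hg, he⟩ := id hh
  set T : Set Qb := {x | ∃ γ n, qbarToC x = (qExp L (compSmul γ h)).coeff n} with hT
  have hcoef : ∀ γ n, ∃ x ∈ (Submodule.span S (Set.range c) : Set Qb),
      qbarToC x = (qExp L (compSmul γ h)).coeff n := fun γ n => by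
    choose s hsS hs using fun i =>
      Subring.mem_map.mp ((((mem_intFun L _).mp (g i).2).2 γ).2 n)
    refine ⟨∑ i, s i * c i, ?_, ?_⟩
    · refine sum_mem fun i _ => ?_
      have := (Submodule.span S (Set.range c)).smul_mem (⟨s i, hsS i⟩ : S)
        (Submodule.subset_span ⟨i, rfl⟩)
      exact this
    · rw [IsCombo.coeff_eq he, map_sum]
      exact Finset.sum_congr rfl fun i _ => by rw [map_mul, mul_comm]; congr 1; exact hs i
  have hTsub : T ⊆ (Submodule.span S (Set.range c) : Set Qb) := by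
    rintro x ⟨γ, n, hx⟩
    obtain ⟨y, hy, hye⟩ := hcoef γ n
    rwa [(qbarToC : Qb →+* ℂ).injective (hx.trans hye.symm)]
  have hnz : ∃ x ∈ T, x ≠ 0 := by
    by_contra hcon
    push Not at hcon
    have hz : qExp L h = 0 := by
      ext n
      obtain ⟨x, -, hx⟩ := hcoef 1 n
      rw [compSmul_one] at hx
      rw [← hx, hcon x ⟨1, n, by rw [compSmul_one]; exact hx⟩, map_zero]
      rfl
    have hm := hh.mem_cuspRingAt 1
    rw [compSmul_one] at hm
    exact hne (congrArg Subtype.val (qExpHom_injective L (a₁ := ⟨h, hm⟩) (a₂ := 0)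
      (by rw [map_zero, qExpHom_apply]; exact hz)))
  obtain ⟨x₀, ⟨γ₀, n₀, hx₀⟩, hx0, hmax⟩ := exists_dominant_mem A S hS c T hTsub hnz
  have hC0 : qbarToC x₀ ≠ 0 := (_root_.map_ne_zero _).mpr hx0
  set F : ℍ → ℂ := fun τ => (qbarToC x₀)⁻¹ * h τ with hF
  have hinvh : ∀ γ ∈ gam M, ∀ τ, h (γ • τ) = h τ := fun γ hγ τ => by
    rw [he, he]
    refine Finset.sum_congr rfl fun i _ => ?_
    conv_rhs => rw [← congrArg (fun f : intFun L _ => (f : ℍ → ℂ) τ) (hg i γ⁻¹ (inv_mem hγ))]
    rw [FermatAgent.Igusa.smul_apply, inv_inv]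
  have hmemF : ∀ γ, compSmul γ F ∈ cuspRingAt L ∧
      ∀ n, (qExp L (compSmul γ F)).coeff n = (qbarToC x₀)⁻¹ * (qExp L (compSmul γ h)).coeff n := by
    intro γ
    have e : compSmul γ F = ((algebraMap ℂ (cuspRingAt L) (qbarToC x₀)⁻¹ *
        ⟨compSmul γ h, hh.mem_cuspRingAt γ⟩ : cuspRingAt L) : ℍ → ℂ) := by
      funext τ
      simp [hF]
    refine ⟨e ▸ SetLike.coe_mem _, fun n => ?_⟩
    rw [e, ← qExpHom_apply, map_mul, AlgHom.commutes, algebraMap_laurentSeries_eq_single,
      HahnSeries.coeff_single_zero_mul, qExpHom_apply]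
  have hFmem : F ∈ intFun L (cRing A) := by
    refine (mem_intFun L _).mpr ⟨fun γ hγ τ => ?_, fun γ => ⟨(hmemF γ).1, fun n => ?_⟩⟩
    · simp only [hF]
      congr 1
      rw [he, he]
      exact Finset.sum_congr rfl fun i _ => by rw [(g i).2.1 γ hγ]
    · obtain ⟨x, -, hx⟩ := hcoef γ n
      rw [(hmemF γ).2, ← hx]
      exact ⟨⟨x / x₀, hmax x ⟨γ, n, hx⟩⟩, by
        rw [show aToC A ⟨x / x₀, _⟩ = qbarToC (x / x₀) from rfl, map_div₀, div_eq_inv_mul]⟩
  refine ⟨x₀, ⟨F, hFmem⟩, hx0, fun γ hγ => ?_, fun h0 => ?_, fun τ => ?_⟩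
  · refine Subtype.ext (funext fun τ => ?_)
    rw [FermatAgent.Igusa.smul_apply]
    exact congrArg (fun z => (qbarToC x₀)⁻¹ * z) (hinvh _ (inv_mem hγ) τ)
  · have hR := hasRoots_cRing A L
    have hL := inv_natCast_mem_cRing A hp hA hpL
    have h1 := redExp_smul_congr (ρ := cRes A) hR hL γ₀⁻¹ (x := ⟨F, hFmem⟩) (y := 0)
      (by rw [h0, map_zero])
    rw [smul_zero, map_zero] at h1
    have h2 := congrArg (fun s : LaurentSeries _ => s.coeff n₀) h1
    simp only [redExp, RingHom.comp_apply, coeffMap_coeff, HahnSeries.coeff_zero] at h2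
    have h3 : (intExp L (cRing A) (γ₀⁻¹ • ⟨F, hFmem⟩)).coeff n₀ = 1 := by
      refine Subtype.ext ?_
      rw [coe_intExp_coeff, Subring.coe_one]
      have e : ((γ₀⁻¹ • (⟨F, hFmem⟩ : intFun L (cRing A)) : intFun L (cRing A)) : ℍ → ℂ) =
          compSmul γ₀ F := by
        funext τ
        rw [FermatAgent.Igusa.smul_apply, inv_inv]
        rfl
      rw [e, (hmemF γ₀).2, ← hx₀, inv_mul_cancel₀ hC0]
    rw [h3, map_one] at h2
    exact one_ne_zero h2
  · simp only [hF]
    rw [mul_inv_cancel_left₀ hC0]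

end FermatAgent.DeligneSerre.X1
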