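import Fermat.Agent.DeligneSerre.X1.GoodRed.Sep
import Fermat.Agent.ModCurve.Fun.Bivariate

/-!
# The reduced function field of `X₁(M)`

For a surjection `ρ : R → k` to an infinite field (a reduction, or the identity of a field) the
field `x1FieldC k M` has degree `[SL(2, ℤ) : ± Γ₁(M)]` over `k(j)` and contains the reduced
expansions of all `± Γ₁(M)`-invariant members of `intFun L R`: choose a combination `θ` of the
generators with pairwise distinct reduced translates and interpolate.
-/

set_option autoImplicit false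
set_option linter.unusedSectionVars false

noncomputable section

open UpperHalfPlane hiding I
open Function Polynomial CongruenceSubgroup
open scoped MatrixGroups

namespace FermatAgent.DeligneSerre.X1

open FermatAgent.Igusa FermatAgent.Igusa.Down FermatAgent.ModFun ModularCurve

variable {L M : ℕ} [NeZero L] [NeZero M] {R : Subring ℂ} {k : Type*} [Field k] {ρ : R →+* k}

theorem jqModC_mem_x1FieldC (K : Type*) [Field K] (M : ℕ) [NeZero M] :
    jqModC K ∈ x1FieldC K M :=
  IntermediateField.subset_adjoin _ _ (Or.inl (Or.inl rfl))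

theorem jqNModC_mem_x1FieldC (K : Type*) [Field K] (M : ℕ) [NeZero M] :
    jqNModC K M ∈ x1FieldC K M :=
  IntermediateField.subset_adjoin _ _ (Or.inl (Or.inr rfl))

theorem genSer_mem_x1FieldC (K : Type*) [Field K] {M : ℕ} [NeZero M] (i : GenIdx M) :
    genSer K M i.1.1 i.1.2 ∈ x1FieldC K M :=
  IntermediateField.subset_adjoin _ _ (Or.inr ⟨i, rfl⟩)

/-- The generators, `j` apart, as integral functions. -/
def genFam (hR : HasRoots L R) (hL : (L : ℂ)⁻¹ ∈ R) (hML : M ∣ L) :
    Option (GenIdx M) → intFun L R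
  | none => thetaAt hR hML
  | some i => genInt hR hL hML (not_dvd_genIdx i).1 (not_dvd_genIdx i).2

/-- Their expansions. -/
def famSer (K : Type*) [CommRing K] (M : ℕ) [NeZero M] : Option (GenIdx M) → LaurentSeries K
  | none => jqNModC K M
  | some i => genSer K M i.1.1 i.1.2

theorem famSer_mem (K : Type*) [Field K] (i : Option (GenIdx M)) :
    famSer K M i ∈ x1FieldC K M := by
  cases i with
  | none => exact jqNModC_mem_x1FieldC K M
  | some i => exact genSer_mem_x1FieldC K i

theorem intExp_genFam (hR : HasRoots L R) (hL : (L : ℂ)⁻¹ ∈ R) (hML : M ∣ L)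
    (i : Option (GenIdx M)) :
    intExp L R (genFam hR hL hML i) = qExpand R L (famSer R M i) := by
  cases i with
  | none => exact intExp_thetaAt hR hML
  | some i => exact intExp_genInt hR hL hML (not_dvd_genIdx i).1 (not_dvd_genIdx i).2

theorem redExp_genFam (ρ : R →+* k) (hR : HasRoots L R) (hL : (L : ℂ)⁻¹ ∈ R) (hML : M ∣ L)
    (i : Option (GenIdx M)) :
    redExp L R ρ (genFam hR hL hML i) = qExpand k L (famSer k M i) := by
  cases i with
  | none => exact redExp_thetaAt ρ hR hML
  | some i => exact redExp_genInt ρ hR hL hML (not_dvd_genIdx i).1 (not_dvd_genIdx i).2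

theorem smul_genFam (hR : HasRoots L R) (hL : (L : ℂ)⁻¹ ∈ R) (hML : M ∣ L)
    (i : Option (GenIdx M)) {γ : SL(2, ℤ)} (hγ : γ ∈ gam M) :
    γ • genFam hR hL hML i = genFam hR hL hML i := by
  cases i with
  | none => exact smul_thetaAt hR hML hγ.1
  | some i =>
    refine Subtype.ext (funext fun τ => ?_)
    rw [FermatAgent.Igusa.smul_apply]
    have hi := inv_mem hγ
    set δ := γ⁻¹
    have h10 : ((δ 1 0 : ℤ) : ZMod M) = 0 := Gamma0_mem.mp hi.1
    have hdet := congrArg (Int.cast : ℤ → ZMod M) δ.det_coe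
    rw [Matrix.det_fin_two] at hdet
    push_cast at hdet
    rw [h10, mul_zero, sub_zero] at hdet
    rcases hi.2 with e | e <;> rw [e] at hdet
    · rw [mul_one] at hdet
      exact genLvl_smul hML hi.1 (by rw [hdet, mul_one]) (by rw [hdet, mul_one]) τ
    · rw [mul_neg, mul_one, neg_eq_iff_eq_neg] at hdet
      show genLvl L M _ _ (δ • τ) = genLvl L M _ _ τ
      have hneg : (-δ) • τ = δ • τ := ModularGroup.SL_neg_smul δ τ
      rw [← hneg]
      have hn00 : (((-δ) 0 0 : ℤ) : ZMod M) = 1 := by simp [hdet]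
      exact genLvl_smul hML (Gamma0_mem.mpr (by simp [h10])) (by rw [hn00, mul_one])
        (by rw [hn00, mul_one]) τ

section

variable (hρ : Surjective ρ) (hR : HasRoots L R) (hL : (L : ℂ)⁻¹ ∈ R) (hML : M ∣ L) (h5 : 5 < M)

include hR hL in
theorem redExp_smul_congr (γ : SL(2, ℤ)) {x y : intFun L R}
    (h : redExp L R ρ x = redExp L R ρ y) :
    redExp L R ρ (γ • x) = redExp L R ρ (γ • y) := by
  have hγ : γ ∈ decompGroup (M := L) ρ := decompGroup_eq_top ρ hR hL ▸ Subgroup.mem_top γ
  have h1 : γ • (x - y) ∈ redKer L R ρ :=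
    (hγ (x - y)).mpr (by rw [redKer, RingHom.mem_ker, map_sub, h, sub_self])
  rwa [smul_sub, redKer, RingHom.mem_ker, map_sub, sub_eq_zero] at h1

variable [Fintype (SL(2, ℤ) ⧸ gam M)] [DecidableEq (SL(2, ℤ) ⧸ gam M)]

include hρ hR hL hML h5 in
/-- A combination of the generators with distinct reduced translates. -/
theorem exists_separating [Infinite k] :
    ∃ (θ : intFun L R) (s : LaurentSeries k), (∀ γ ∈ gam M, γ • θ = θ) ∧
      redExp L R ρ θ = qExpand k L s ∧ s ∈ x1FieldC k M ∧
      Injective fun c : SL(2, ℤ) ⧸ gam M => redExp L R ρ (c.out • θ) := by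
  classical
  let I := Option (GenIdx M)
  let n : I → ℕ := fun i => (Fintype.equivFin I i : ℕ)
  let g : I → intFun L R := genFam hR hL hML
  let P : SL(2, ℤ) ⧸ gam M → (LaurentSeries k)[X] := fun c =>
    ∑ i, C (redExp L R ρ (c.out • g i) - redExp L R ρ (g i)) * X ^ n i
  have hP : ∀ c, P c ≠ 0 ∨ c.out ∈ gam M := by
    intro c
    by_cases h0 : P c = 0
    swap
    · exact Or.inl h0
    refine Or.inr ?_
    have hi : ∀ i, redExp L R ρ (c.out • g i) = redExp L R ρ (g i) := fun i => by
      have h1 := congrArg (fun p : (LaurentSeries k)[X] => p.coeff (n i)) h0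
      simp only [P, finsetSum_coeff, coeff_C_mul_X_pow, coeff_zero] at h1
      rw [Finset.sum_eq_single i (fun j _ hj => if_neg fun e => hj
        ((Fintype.equivFin I).injective (Fin.ext e.symm))) (by simp), if_pos rfl] at h1
      exact sub_eq_zero.mp h1
    have hδ := mem_gamma0_of_redExp_thetaAt ρ hR hML (hi none)
    refine mem_gam_of_redExp_genInt ρ hR hL hML h5 hδ fun a b ha' hb' ha hb => ?_
    exact hi (some ⟨(⟨a, ha'⟩, ⟨b, hb'⟩), fun e => ha (by simp at e; simp [e]),
      fun e => hb (by simp at e; simp [e])⟩)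
  let B : Finset (LaurentSeries k) := Finset.univ.biUnion fun c => (P c).roots.toFinset
  have hfin : {t : k | HahnSeries.C t ∈ B}.Finite :=
    B.finite_toSet.preimage fun _ _ _ _ h => HahnSeries.C_injective h
  obtain ⟨t, ht⟩ := hfin.exists_notMem
  obtain ⟨r, rfl⟩ := hρ t
  set θ : intFun L R := ∑ i, constHom L R (r ^ n i) * g i with hθ
  have hred : ∀ δ : SL(2, ℤ), redExp L R ρ (δ • θ) =
      ∑ i, redExp L R ρ (δ • g i) * HahnSeries.C (ρ r) ^ n i := fun δ => by
    rw [hθ, Finset.smul_sum, map_sum]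
    refine Finset.sum_congr rfl fun i _ => ?_
    rw [smul_mul', smul_constHom, map_mul, redExp_constHom, map_pow, map_pow, mul_comm]
  have hinv : ∀ γ ∈ gam M, γ • θ = θ := fun γ hγ => by
    rw [hθ, Finset.smul_sum]
    exact Finset.sum_congr rfl fun i _ => by
      rw [smul_mul', smul_constHom, smul_genFam hR hL hML i hγ]
  have hstab : ∀ δ : SL(2, ℤ), redExp L R ρ (δ • θ) = redExp L R ρ θ → δ ∈ gam M := by
    intro δ hδ
    set c : SL(2, ℤ) ⧸ gam M := QuotientGroup.mk δ
    obtain ⟨h, hh⟩ := QuotientGroup.mk_out_eq_mul (gam M) δ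
    have hout : c.out • θ = δ • θ := by rw [hh, mul_smul, hinv _ h.2]
    suffices hc : c.out ∈ gam M by
      rw [hh] at hc
      exact (Subgroup.mul_mem_cancel_right _ h.2).mp hc
    refine (hP c).resolve_left fun hne => ht ?_
    simp only [Set.mem_ofPred_eq, B, Finset.mem_biUnion, Finset.mem_univ, true_and,
      Multiset.mem_toFinset]
    refine ⟨c, (mem_roots hne).mpr ?_⟩
    have h1 := hred c.out
    rw [hout, hδ] at h1
    have h2 := hred 1
    simp only [one_smul] at h2
    simp only [P, IsRoot, eval_finsetSum, eval_mul, eval_C, eval_pow, eval_X, sub_mul,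
      Finset.sum_sub_distrib, ← h1, ← h2, sub_self]
  refine ⟨θ, ∑ i, famSer k M i * HahnSeries.C (ρ r) ^ n i, hinv, ?_, ?_, ?_⟩
  · have h := hred 1
    simp only [one_smul] at h
    rw [h, map_sum]
    refine Finset.sum_congr rfl fun i _ => ?_
    rw [map_mul, map_pow, qExpand_C, redExp_genFam]
  · refine sum_mem fun i _ => mul_mem (famSer_mem k i) (pow_mem ?_ _)
    rw [HahnSeries.C_apply, ← algebraMap_laurentSeries_eq_single]
    exact IntermediateField.algebraMap_mem _ _
  · intro c c' h
    have h1 := redExp_smul_congr hR hL (c'.out)⁻¹ h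
    rw [inv_smul_smul, ← mul_smul] at h1
    have h2 := hstab _ h1
    rw [← QuotientGroup.out_eq' c, ← QuotientGroup.out_eq' c', eq_comm, QuotientGroup.eq]
    exact h2

theorem exists_interp_lift {θ x : intFun L R} (hθ : ∀ γ ∈ gam M, γ • θ = θ)
    (hx : ∀ γ ∈ gam M, γ • x = x) :
    ∃ P : R[X][X], P.eval₂ (polyInt L R) θ = x * ∏ c' ∈ (Finset.univ.erase
      (QuotientGroup.mk 1 : SL(2, ℤ) ⧸ gam M)), (θ - c'.out • θ) := by
  classical
  set G : (intFun L R)[X] := ∑ c : SL(2, ℤ) ⧸ gam M, C (c.out • x) *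
    ∏ c' ∈ Finset.univ.erase c, (X - C (c'.out • θ)) with hG
  have hinv : ∀ γ : SL(2, ℤ), G.map (MulSemiringAction.toRingHom _ (intFun L R) γ) = G := by
    intro γ
    rw [hG, Polynomial.map_sum]
    refine Fintype.sum_equiv (MulAction.toPerm γ) _ _ fun c => ?_
    rw [Polynomial.map_mul, Polynomial.map_C, Polynomial.map_prod,
      MulSemiringAction.toRingHom_apply, MulAction.toPerm_apply, smul_out_smul hx]
    congr 1
    refine Finset.prod_equiv (MulAction.toPerm γ) (fun c' => by simp) fun c' _ => ?_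
    simp only [Polynomial.map_sub, Polynomial.map_X, Polynomial.map_C,
      MulSemiringAction.toRingHom_apply, MulAction.toPerm_apply, smul_out_smul hθ]
  have hlifts : G ∈ lifts (polyInt L R) := (lifts_iff_coeff_lifts G).mpr fun i => by
    obtain ⟨P, hP⟩ := exists_polyInt_eq L R (G.coeff i) fun γ => by
      conv_rhs => rw [← hinv γ, Polynomial.coeff_map]
      rfl
    exact ⟨P, hP⟩
  obtain ⟨P, hP⟩ := (mem_lifts G).mp hlifts
  refine ⟨P, ?_⟩
  set c₁ : SL(2, ℤ) ⧸ gam M := QuotientGroup.mk 1
  have hfix : ∀ {y : intFun L R}, (∀ γ ∈ gam M, γ • y = y) → c₁.out • y = y := fun {y} hy => by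
    obtain ⟨h, hh⟩ := QuotientGroup.mk_out_eq_mul (gam M) (1 : SL(2, ℤ))
    rw [hh, one_mul, hy _ h.2]
  rw [eval₂_eq_eval_map, hP, hG, eval_finsetSum, Finset.sum_eq_single c₁ ?_ (by simp)]
  · simp [eval_prod, hfix hx]
  · intro c _ hc
    rw [eval_mul, eval_prod, Finset.prod_eq_zero (Finset.mem_erase.mpr ⟨hc.symm, Finset.mem_univ c₁⟩)
      (by simp [hfix hθ]), mul_zero]

theorem redExp_eval₂_polyInt {θ : intFun L R} {s : LaurentSeries k}
    (hs : redExp L R ρ θ = qExpand k L s) (P : R[X][X]) :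
    redExp L R ρ (P.eval₂ (polyInt L R) θ) =
      qExpand k L ((P.map (mapRingHom ρ)).eval₂ (gevC k) s) := by
  rw [hom_eval₂, hs, hom_eval₂, eval₂_map]
  congr 1
  refine RingHom.ext fun p => ?_
  rw [RingHom.comp_apply, redExp, RingHom.comp_apply, intExp_polyInt, coeffMap_qExpand,
    coeffMap_gevC]
  rfl

theorem eval₂_gevC_mem (K : Type*) [Field K] {s : LaurentSeries K}
    {E : IntermediateField K (LaurentSeries K)} (hj : jqModC K ∈ E) (hs : s ∈ E) (P : K[X][X]) :
    P.eval₂ (gevC K) s ∈ E := by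
  induction P using Polynomial.induction_on' with
  | add p q hp hq => rw [eval₂_add]; exact add_mem hp hq
  | monomial m a =>
    rw [eval₂_monomial, gevC_eq_aeval]
    refine mul_mem ?_ (pow_mem hs m)
    exact IntermediateField.adjoin_simple_le_iff.mpr hj
      (IntermediateField.algebra_adjoin_le_adjoin K _ (aeval_mem_adjoin_singleton K _))

include hρ hR hL hML h5 in
/-- A primitive element and the expansions of invariant functions. -/
theorem exists_primitive [Infinite k] :
    ∃ s : LaurentSeries k, s ∈ x1FieldC k M ∧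
      (∀ P : k[X][X], P.natDegree < (gam M).index → P.eval₂ (gevC k) s = 0 → P = 0) ∧
      (∃ Φ : k[X][X], Φ.Monic ∧ Φ.natDegree = (gam M).index ∧ Φ.eval₂ (gevC k) s = 0) ∧
      ∀ x : intFun L R, (∀ γ ∈ gam M, γ • x = x) →
        ∃ y ∈ IntermediateField.adjoin k ({jqModC k, s} : Set (LaurentSeries k)),
          redExp L R ρ x = qExpand k L y := by
  classical
  obtain ⟨θ, s, hθ, hs, hsmem, hinj⟩ := exists_separating hρ hR hL hML h5
  refine ⟨s, hsmem, ?_, ?_, ?_⟩
  · intro G hdeg hG0
    obtain ⟨G', hG'⟩ := Polynomial.map_surjective (mapRingHom ρ)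
      (Polynomial.map_surjective ρ hρ) G
    set J := (qExpand k L).comp (gevC k) with hJ
    have hcomp : ((redExp L R ρ).comp (polyInt L R)) = J.comp (mapRingHom ρ) := by
      refine RingHom.ext fun p => ?_
      rw [RingHom.comp_apply, redExp, RingHom.comp_apply, intExp_polyInt, coeffMap_qExpand,
        coeffMap_gevC]
      rfl
    have hroot : ∀ δ : SL(2, ℤ), G.eval₂ J (redExp L R ρ (δ • θ)) = 0 := fun δ => by
      have h0 : redExp L R ρ (G'.eval₂ (polyInt L R) θ) = redExp L R ρ 0 := by
        rw [redExp_eval₂_polyInt hs, hG', hG0, map_zero, map_zero]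
      have h1 := redExp_smul_congr hR hL δ h0
      rw [smul_zero, map_zero, ← MulSemiringAction.toRingHom_apply _ (intFun L R) δ, hom_eval₂,
        hom_eval₂] at h1
      rw [← hG', eval₂_map, ← hcomp]
      refine Eq.trans ?_ h1
      congr 1
      exact RingHom.ext fun p => by simp [smul_polyInt]
    by_contra hne
    have hGm : G.map J ≠ 0 := by
      rwa [Polynomial.map_ne_zero_iff]
      exact (qExpand_injective L).comp fun p q h => by
        by_contra hpq
        exact gevC_ne_zero k (sub_ne_zero.mpr hpq) (by rw [map_sub, h, sub_self])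
    have hsub : Finset.univ.image (fun c : SL(2, ℤ) ⧸ gam M => redExp L R ρ (c.out • θ)) ⊆
        (G.map J).roots.toFinset := fun x hx => by
      obtain ⟨c, -, rfl⟩ := Finset.mem_image.mp hx
      rw [Multiset.mem_toFinset, mem_roots hGm, IsRoot, eval_map]
      exact hroot _
    have hcard := Finset.card_le_card hsub
    rw [Finset.card_image_of_injective _ hinj, Finset.card_univ, ← Nat.card_eq_fintype_card,
      ← Subgroup.index] at hcard
    have := hcard.trans ((Multiset.toFinset_card_le _).trans ((card_roots' _).trans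
      natDegree_map_le))
    omega
  · obtain ⟨F, hFm, hFd, hF, -⟩ := exists_coset_relation (gam M) θ hθ
    refine ⟨F.map (mapRingHom ρ), hFm.map _, ?_, qExpand_injective L ?_⟩
    · rw [hFm.natDegree_map, hFd, Subgroup.index, Nat.card_eq_fintype_card]
    · rw [← redExp_eval₂_polyInt hs, hF, map_zero, map_zero]
  · intro x hx
    obtain ⟨P₁, hP₁⟩ := exists_interp_lift hθ (x := 1) fun γ _ => smul_one γ
    obtain ⟨Px, hPx⟩ := exists_interp_lift hθ hx
    set E := IntermediateField.adjoin k ({jqModC k, s} : Set (LaurentSeries k))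
    have hj : jqModC k ∈ E := IntermediateField.subset_adjoin _ _ (Or.inl rfl)
    have hs' : s ∈ E := IntermediateField.subset_adjoin _ _ (Or.inr rfl)
    set D := ∏ c' ∈ (Finset.univ.erase (QuotientGroup.mk 1 : SL(2, ℤ) ⧸ gam M)),
      (θ - c'.out • θ)
    have hD : redExp L R ρ D ≠ 0 := by
      rw [map_prod]
      refine Finset.prod_ne_zero_iff.mpr fun c hc h0 => (Finset.mem_erase.mp hc).1 (hinj ?_)
      obtain ⟨h, hh⟩ := QuotientGroup.mk_out_eq_mul (gam M) (1 : SL(2, ℤ))
      show redExp L R ρ (c.out • θ) = redExp L R ρ ((QuotientGroup.mk 1 : SL(2, ℤ) ⧸ gam M).out • θ)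
      rw [hh, one_mul, hθ _ h.2]
      rw [map_sub, sub_eq_zero] at h0
      exact h0.symm
    refine ⟨(Px.map (mapRingHom ρ)).eval₂ (gevC k) s / (P₁.map (mapRingHom ρ)).eval₂ (gevC k) s,
      div_mem (eval₂_gevC_mem k hj hs' _) (eval₂_gevC_mem k hj hs' _), ?_⟩
    rw [map_div₀, ← redExp_eval₂_polyInt hs, ← redExp_eval₂_polyInt hs, hP₁, hPx, one_mul, map_mul,
      mul_div_cancel_right₀ _ hD]

end

variable [Infinite k] (hρ : Surjective ρ) (hR : HasRoots L R) (hL : (L : ℂ)⁻¹ ∈ R) (hML : M ∣ L)
  (h5 : 5 < M)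

include hρ hR hL hML h5 in
theorem exists_primitive_eq :
    ∃ s : LaurentSeries k,
      IntermediateField.adjoin k ({jqModC k, s} : Set (LaurentSeries k)) = x1FieldC k M ∧
      (∀ P : k[X][X], P.natDegree < (gam M).index → P.eval₂ (gevC k) s = 0 → P = 0) ∧
      (∃ Φ : k[X][X], Φ.Monic ∧ Φ.natDegree = (gam M).index ∧ Φ.eval₂ (gevC k) s = 0) ∧
      ∀ x : intFun L R, (∀ γ ∈ gam M, γ • x = x) →
        ∃ y ∈ x1FieldC k M, redExp L R ρ x = qExpand k L y := by
  classical
  have := Fintype.ofFinite (SL(2, ℤ) ⧸ gam M)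
  obtain ⟨s, hs, h1, h2, h3⟩ := exists_primitive hρ hR hL hML h5
  have hle : IntermediateField.adjoin k ({jqModC k, s} : Set (LaurentSeries k)) ≤ x1FieldC k M :=
    IntermediateField.adjoin_le_iff.mpr
      (Set.insert_subset_iff.mpr ⟨jqModC_mem_x1FieldC k M, Set.singleton_subset_iff.mpr hs⟩)
  refine ⟨s, le_antisymm hle ?_, h1, h2, fun x hx => ?_⟩
  · rw [x1FieldC, IntermediateField.adjoin_le_iff]
    have hfam : ∀ i, famSer k M i ∈
        IntermediateField.adjoin k ({jqModC k, s} : Set (LaurentSeries k)) := fun i => by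
      obtain ⟨y, hy, he⟩ := h3 (genFam hR hL hML i) fun γ hγ => smul_genFam hR hL hML i hγ
      rw [redExp_genFam] at he
      rwa [qExpand_injective L he]
    rintro _ ((rfl | rfl) | ⟨i, rfl⟩)
    · exact IntermediateField.subset_adjoin _ _ (Or.inl rfl)
    · exact hfam none
    · exact hfam (some i)
  · obtain ⟨y, hy, he⟩ := h3 x hx
    exact ⟨y, hle hy, he⟩

include hρ hR hL hML h5 in
/-- Reduced expansions of invariant functions lie in the function field. -/
theorem exists_mem_x1FieldC {x : intFun L R} (hx : ∀ γ ∈ gam M, γ • x = x) :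
    ∃ y ∈ x1FieldC k M, redExp L R ρ x = qExpand k L y :=
  (exists_primitive_eq hρ hR hL hML h5).choose_spec.2.2.2 x hx

include hρ hR hL hML h5 in
/-- The degree over the `j`-line. -/
theorem finrank_x1FieldC {E : IntermediateField k (LaurentSeries k)} (hE : E = x1FieldC k M)
    (t : E) (ht : (t : LaurentSeries k) = jqModC k) :
    Module.finrank (IntermediateField.adjoin k {t}) E = (gam M).index := by
  obtain ⟨s, hgen, hrel, ⟨Φ, hΦm, hΦd, hΦ⟩, -⟩ := exists_primitive_eq hρ hR hL hML h5
  have hsE : s ∈ E := by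
    rw [hE, ← hgen]
    exact IntermediateField.subset_adjoin _ _ (Or.inr rfl)
  set y : E := ⟨s, hsE⟩
  have hev : ∀ P : k[X][X], ((biEval t y P : E) : LaurentSeries k) = P.eval₂ (gevC k) s := by
    intro P
    rw [biEval, coe_eval₂RingHom]
    show E.val.toRingHom _ = _
    rw [hom_eval₂]
    refine congrArg (fun φ => P.eval₂ φ s) (RingHom.ext fun q => ?_)
    rw [RingHom.comp_apply, gevC_eq_aeval, ← ht]
    exact (aeval_algHom_apply E.val t q).symm
  refine finrank_of_noRelation (x := t) (y := y) Φ hΦm hΦd (Subtype.ext ((hev Φ).trans hΦ)) ?_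
    fun P hP h => hrel P hP (by rw [← hev, h]; rfl)
  refine IntermediateField.map_injective (IntermediateField.val _) ?_
  rw [IntermediateField.adjoin_map, Set.image_pair, ← AlgHom.fieldRange_eq_map,
    IntermediateField.fieldRange_val]
  show IntermediateField.adjoin k {(t : LaurentSeries k), s} = E
  rw [ht, hgen, hE]

end FermatAgent.DeligneSerre.X1
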