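import Fermat.Agent.DeligneSerre.X1.GoodRed.Rows
import Fermat.Agent.Igusa.Fibre.WpForm
import Fermat.Agent.Igusa.Down.LevelLift

/-!
# The generators of the function field of `X₁(M)` as integral functions of level `L`, `M ∣ L`
-/

set_option autoImplicit false

noncomputable section

open UpperHalfPlane hiding I
open Complex Finset CongruenceSubgroup
open scoped MatrixGroups

namespace FermatAgent.DeligneSerre.X1

open FermatAgent.Igusa FermatAgent.ModFun ModularCurve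

variable {L M : ℕ} [NeZero L] [NeZero M] {R : Subring ℂ}

/-- The generator with expansion `genSer M a b`, as a function of level `L`. -/
def genLvl (L M : ℕ) [NeZero M] (a b : ℕ) (τ : ℍ) : ℂ :=
  ((M : ℂ) ^ 2)⁻¹ *
    ((∑ r ∈ range M, wpDiff L (row L M a (r : ℕ)) (row L M b (r : ℕ)) τ) * e46Fun (dil M τ))

omit [NeZero L] [NeZero M] in
theorem sum_wpDiff_smul (a b : ℕ) (γ : SL(2, ℤ)) (τ : ℍ) :
    (∑ r ∈ range M, wpDiff L (row L M a (r : ℕ)) (row L M b (r : ℕ)) (γ • τ)) =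
      ((γ 1 0 : ℂ) * τ + γ 1 1) ^ 2 * ∑ r ∈ range M,
        wpDiff L (vecMulSL (row L M a (r : ℕ)) γ) (vecMulSL (row L M b (r : ℕ)) γ) τ := by
  rw [Finset.mul_sum]
  exact Finset.sum_congr rfl fun r _ => wpDiff_smul _ _ γ τ

theorem genLvl_mem_intFun (hR : HasRoots L R) (hL : (L : ℂ)⁻¹ ∈ R) (hML : M ∣ L) {a b : ℕ}
    (ha : ¬ M ∣ a) (hb : ¬ M ∣ b) : genLvl L M a b ∈ intFun L R := by
  have ha' : ¬ (M : ℤ) ∣ (a : ℤ) := fun h => ha (Int.natCast_dvd_natCast.mp h)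
  have hb' : ¬ (M : ℤ) ∣ (b : ℤ) := fun h => hb (Int.natCast_dvd_natCast.mp h)
  refine ⟨fun γ hγ τ => ?_, fun γ => ?_⟩
  · obtain ⟨γ', h1, h2⟩ := exists_dil_smul_of_dvd M γ (dvd_of_mem_gamma hML hγ)
    have h3 := e46Fun_smul γ' (dil M τ)
    rw [h2] at h3
    have hs : ∑ r ∈ range M, wpDiff L (vecMulSL (row L M a (r : ℕ)) γ)
        (vecMulSL (row L M b (r : ℕ)) γ) τ =
        ∑ r ∈ range M, wpDiff L (row L M a (r : ℕ)) (row L M b (r : ℕ)) τ :=
      Finset.sum_congr rfl fun r _ => by simp only [wpDiff, pDiv_vecMulSL_of_mem_gamma hγ]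
    simp only [genLvl]
    rw [sum_wpDiff_smul, hs, h1, ← h3]
    ring
  · obtain ⟨δ, p, e, _, _, u, hpe, -, h1, h2⟩ := FermatAgent.Igusa.exists_dil_smul M γ
    have hed : e ∣ L := (Dvd.intro_left p hpe).trans hML
    have he0 : (e : ℂ) ≠ 0 := Nat.cast_ne_zero.mpr (NeZero.ne e)
    have hkey : compSmul γ (genLvl L M a b) =
        (fun _ => ((M : ℂ) ^ 2)⁻¹ * (e : ℂ) ^ 2) *
          ((∑ r ∈ range M, wpDiff L (vecMulSL (row L M a (r : ℕ)) γ)
            (vecMulSL (row L M b (r : ℕ)) γ)) * (e46Fun ∘ ut p e u)) := by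
      funext τ
      simp only [compSmul_apply, genLvl, Pi.mul_apply, Function.comp_apply, Finset.sum_apply]
      rw [sum_wpDiff_smul, h1, ← h2 τ]
      have h3 := e46Fun_smul δ (ut p e u τ)
      generalize ((δ 1 0 : ℂ) * (ut p e u τ : ℂ) + δ 1 1) = D at h3 ⊢
      rw [← h3]
      ring
    rw [hkey]
    refine mul_mem (intFun_le_expSubring L R (const_mem_intFun L R ?_))
      (mul_mem (sum_mem fun r _ => wpDiff_mem_expSubring hR hL
        (nonzeroMod_vecMulSL (nonzeroMod_rowLvl hML ha' _) γ)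
        (nonzeroMod_vecMulSL (nonzeroMod_rowLvl hML hb' _) γ))
        (qExp_comp_ut_mem e46Fun_mem_cuspRing
          ⟨e46Ser R, (coeffMap_e46Ser _).trans qLaurent_e46Fun.symm⟩ hR u hed))
    have hM : (M : ℂ)⁻¹ ∈ R := by
      have h := mul_mem hL (natCast_mem R (L / M))
      have hLe : ((L / M : ℕ) : ℂ) * M = L := by exact_mod_cast Nat.div_mul_cancel hML
      have he : ((L / M : ℕ) : ℂ) ≠ 0 := Nat.cast_ne_zero.mpr (div_ne_zero' hML)
      convert h using 1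
      rw [← hLe, mul_inv]
      field_simp
    rw [← inv_pow]
    exact mul_mem (pow_mem hM 2) (pow_mem (natCast_mem R e) 2)

/-- The generator as an element of `intFun L R`. -/
def genInt (hR : HasRoots L R) (hL : (L : ℂ)⁻¹ ∈ R) (hML : M ∣ L) {a b : ℕ} (ha : ¬ M ∣ a)
    (hb : ¬ M ∣ b) : intFun L R :=
  ⟨genLvl L M a b, genLvl_mem_intFun hR hL hML ha hb⟩

theorem qExp_genLvl (hR : HasRoots L R) (hL : (L : ℂ)⁻¹ ∈ R) (hML : M ∣ L) {a b : ℕ}
    (ha : ¬ M ∣ a) (hb : ¬ M ∣ b) :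
    qExp L (genLvl L M a b) = qExpand ℂ L (genSer ℂ M a b) := by
  classical
  have ha' : ¬ (M : ℤ) ∣ (a : ℤ) := fun h => ha (Int.natCast_dvd_natCast.mp h)
  have hb' : ¬ (M : ℤ) ∣ (b : ℤ) := fun h => hb (Int.natCast_dvd_natCast.mp h)
  let f : ℕ → ℍ → ℂ := fun r => wpDiff L (row L M a (r : ℕ)) (row L M b (r : ℕ))
  have hf : ∀ r, f r ∈ cuspRingAt L := fun r =>
    ((mem_expSubring L R).mp (wpDiff_mem_expSubring hR hL (nonzeroMod_rowLvl hML ha' _)
      (nonzeroMod_rowLvl hML hb' _))).1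
  have he1 : e46Fun ∘ dil M ∈ cuspRing := mem_cuspRing_comp_dil e46Fun_mem_cuspRing M
  have he : e46Fun ∘ dil M ∈ cuspRingAt L := mem_cuspRing_comp_dil he1 L
  have hfun : genLvl L M a b = ((algebraMap ℂ (cuspRingAt L) ((M : ℂ) ^ 2)⁻¹ *
      ((∑ r ∈ range M, (⟨f r, hf r⟩ : cuspRingAt L)) *
      ⟨e46Fun ∘ dil M, he⟩) : cuspRingAt L) : ℍ → ℂ) := by
    funext τ
    simp [genLvl, f, Finset.sum_apply]
  rw [hfun, ← qExpHom_apply, map_mul, map_mul, map_sum, AlgHom.commutes]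
  simp only [qExpHom_apply]
  have hS : ∑ r ∈ range M, qExp L (f r) = HahnSeries.C ((M : ℂ) ^ 2) * qExpand ℂ L
      (HahnSeries.ofPowerSeries ℤ ℂ ((wpSer M a - wpSer M b).map (Int.castRingHom ℂ))) := by
    ext m
    simp only [HahnSeries.coeff_sum, HahnSeries.C_apply, HahnSeries.coeff_single_zero_mul, f,
      qExp_wpDiff (nonzeroMod_rowLvl hML ha' _) (nonzeroMod_rowLvl hML hb' _)]
    rcases lt_or_ge m 0 with hm | hm
    · simp only [toLS_mk_coeff_neg _ hm, Finset.sum_const_zero]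
      by_cases hd : (L : ℤ) ∣ m
      · obtain ⟨m', rfl⟩ := hd
        rw [qExpand_coeff_mul, PowerSeries.coeff_coe,
          if_pos (by nlinarith [NeZero.pos L]), mul_zero]
      · rw [qExpand_coeff_of_not_dvd _ _ hd, mul_zero]
    · obtain ⟨n, rfl⟩ := Int.eq_ofNat_of_zero_le hm
      simp only [toLS_mk_coeff, sum_wpDiffCoeff hML ha hb]
      split_ifs with hd
      · obtain ⟨n', rfl⟩ := hd
        rw [Nat.cast_mul, qExpand_coeff_mul, HahnSeries.ofPowerSeries_apply_coeff,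
          PowerSeries.coeff_map, Nat.mul_div_cancel_left _ (NeZero.pos L)]
        rfl
      · rw [qExpand_coeff_of_not_dvd _ _ (fun h => hd (Int.natCast_dvd_natCast.mp h)), mul_zero]
  have hE : qExp L (e46Fun ∘ dil M) = qExpand ℂ L (qExpand ℂ M (e46Ser ℂ)) := by
    rw [qExp, qLaurent_comp_dil he1, qLaurent_comp_dil e46Fun_mem_cuspRing, qLaurent_e46Fun]
  rw [hS, hE, algebraMap_laurentSeries_eq_single, ← HahnSeries.C_apply, ← mul_assoc, ← mul_assoc,
    ← map_mul HahnSeries.C,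
    inv_mul_cancel₀ (pow_ne_zero 2 (Nat.cast_ne_zero.mpr (NeZero.ne M))), map_one, one_mul,
    ← map_mul]
  rfl

theorem intExp_genInt (hR : HasRoots L R) (hL : (L : ℂ)⁻¹ ∈ R) (hML : M ∣ L) {a b : ℕ}
    (ha : ¬ M ∣ a) (hb : ¬ M ∣ b) :
    intExp L R (genInt hR hL hML ha hb) = qExpand R L (genSer R M a b) := by
  apply coeffMap_injective R.subtype_injective
  rw [coeffMap_intExp, coeffMap_qExpand, coeffMap_genSer]
  exact qExp_genLvl hR hL hML ha hb

theorem redExp_genInt {k : Type*} [CommRing k] (ρ : R →+* k) (hR : HasRoots L R)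
    (hL : (L : ℂ)⁻¹ ∈ R) (hML : M ∣ L) {a b : ℕ} (ha : ¬ M ∣ a) (hb : ¬ M ∣ b) :
    redExp L R ρ (genInt hR hL hML ha hb) = qExpand k L (genSer k M a b) := by
  rw [redExp, RingHom.comp_apply, intExp_genInt, coeffMap_qExpand, coeffMap_genSer]

omit [NeZero M] in
theorem pDiv_congr_row (hML : M ∣ L) {v w x y : ℤ} (h1 : (M : ℤ) ∣ v - x) (h2 : (M : ℤ) ∣ w - y)
    (τ : ℍ) :
    pDiv L (((L / M : ℕ) : ℤ) * v, ((L / M : ℕ) : ℤ) * w) τ =
      pDiv L (((L / M : ℕ) : ℤ) * x, ((L / M : ℕ) : ℤ) * y) τ :=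
  pDiv_congr (NeZero.pos L) (by rw [← mul_sub]; exact (dvd_row_iff hML _).mpr h1)
    (by rw [← mul_sub]; exact (dvd_row_iff hML _).mpr h2) τ

/-- `Γ₀(M)` permutes the generators: `γ` multiplies the indices by its upper left entry. -/
theorem genLvl_smul (hML : M ∣ L) {a b a' b' : ℕ} {γ : SL(2, ℤ)} (hγ : γ ∈ Gamma0 M)
    (ha : (a' : ZMod M) = (a : ZMod M) * ((γ 0 0 : ℤ) : ZMod M))
    (hb : (b' : ZMod M) = (b : ZMod M) * ((γ 0 0 : ℤ) : ZMod M)) (τ : ℍ) :
    genLvl L M a b (γ • τ) = genLvl L M a' b' τ := by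
  have h10 : ((γ 1 0 : ℤ) : ZMod M) = 0 := Gamma0_mem.mp hγ
  obtain ⟨γ', h1, h2⟩ := exists_dil_smul_of_dvd M γ ((ZMod.intCast_zmod_eq_zero_iff_dvd _ _).mp h10)
  have h3 := e46Fun_smul γ' (dil M τ)
  rw [h2] at h3
  have hdet : ((γ 0 0 : ℤ) : ZMod M) * ((γ 1 1 : ℤ) : ZMod M) = 1 := by
    have h := congrArg (Int.cast : ℤ → ZMod M) γ.det_coe
    rw [Matrix.det_fin_two] at h
    push_cast at h
    rw [h10, mul_zero, sub_zero] at h
    exact h
  -- the shift of the row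
  have hrow : ∀ (c c' : ℕ), (c' : ZMod M) = (c : ZMod M) * ((γ 0 0 : ℤ) : ZMod M) → ∀ r : ℕ,
      pDiv L (vecMulSL (row L M c (r : ℕ)) γ) τ =
        pDiv L (row L M c' (((c : ℤ) * γ 0 1 + (r : ℤ) * γ 1 1))) τ := by
    intro c c' hc r
    have e1 : vecMulSL (row L M c (r : ℕ)) γ = (((L / M : ℕ) : ℤ) * ((c : ℤ) * γ 0 0 + r * γ 1 0),
        ((L / M : ℕ) : ℤ) * ((c : ℤ) * γ 0 1 + r * γ 1 1)) := by
      simp only [vecMulSL, row]
      ext <;> ring
    rw [e1, row]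
    refine pDiv_congr_row hML ?_ (by simp) τ
    rw [← ZMod.intCast_zmod_eq_zero_iff_dvd]
    push_cast
    rw [h10, hc]
    ring
  have hsum : ∀ (c c' : ℕ), (c' : ZMod M) = (c : ZMod M) * ((γ 0 0 : ℤ) : ZMod M) →
      ∑ r ∈ range M, pDiv L (vecMulSL (row L M c (r : ℕ)) γ) τ =
        ∑ r ∈ range M, pDiv L (row L M c' (r : ℕ)) τ := by
    intro c c' hc
    simp only [hrow c c' hc]
    let sh : ℕ → ℕ := fun r => (((c : ℤ) * γ 0 1 + (r : ℤ) * γ 1 1 : ℤ) : ZMod M).val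
    have hsh : ∀ r : ℕ, pDiv L (row L M c' ((c : ℤ) * γ 0 1 + (r : ℤ) * γ 1 1)) τ =
        pDiv L (row L M c' (sh r : ℕ)) τ := fun r => by
      refine pDiv_congr_row hML (by simp) ?_ τ
      rw [← ZMod.intCast_zmod_eq_zero_iff_dvd]
      push_cast
      simp [sh]
    simp only [hsh]
    refine Finset.sum_nbij sh (fun r _ => Finset.mem_range.mpr (ZMod.val_lt _)) ?_ ?_ fun _ _ => rfl
    · intro r hr s hs h
      simp only [Finset.coe_range, Set.mem_Iio] at hr hs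
      have h' := ZMod.val_injective M h
      push_cast at h'
      have := congrArg (· * ((γ 0 0 : ℤ) : ZMod M)) (add_left_cancel h')
      simp only [mul_assoc, mul_comm ((γ 1 1 : ℤ) : ZMod M), hdet, mul_one] at this
      have h'' := congrArg ZMod.val this
      rwa [ZMod.val_natCast, ZMod.val_natCast, Nat.mod_eq_of_lt hr, Nat.mod_eq_of_lt hs] at h''
    · intro s hs
      simp only [Finset.coe_range, Set.mem_Iio] at hs
      refine ⟨((((s : ℤ) - (c : ℤ) * γ 0 1) * γ 0 0 : ℤ) : ZMod M).val, ?_, ?_⟩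
      · simp only [Finset.coe_range, Set.mem_Iio]; exact ZMod.val_lt _
      · simp only [sh]
        conv_rhs => rw [← Nat.mod_eq_of_lt hs, ← ZMod.val_natCast]
        congr 1
        push_cast [ZMod.natCast_zmod_val]
        linear_combination ((s : ZMod M) - (c : ZMod M) * ((γ 0 1 : ℤ) : ZMod M)) * hdet
  simp only [genLvl]
  rw [sum_wpDiff_smul, h1, ← h3]
  simp only [wpDiff, Finset.sum_sub_distrib, hsum a a' ha, hsum b b' hb]
  ring

end FermatAgent.DeligneSerre.X1
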