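import Fermat.Prelude.Def_ModularCurve_LaurentCoeff
import Mathlib.RingTheory.Valuation.ValuationSubring

/-!
# Integers of a field of Laurent series

For a field `E` of Laurent series over `K` and a valuation ring `A` of `K`, `lsInt A E` consists
of the quotients in `E` of a series with coefficients in `A` by one with nonzero reduction, and
`lsRed` reduces coefficientwise.
-/

set_option autoImplicit false

noncomputable section

namespace FermatAgent.DeligneSerre.X1

open ModularCurve IsLocalRing

variable {K : Type*} [Field K] (A : ValuationSubring K) (E : IntermediateField K (LaurentSeries K))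

/-- A series over `A` as a series over `K`. -/
abbrev lsIncl : LaurentSeries A →+* LaurentSeries K := coeffMap A.subtype

/-- The reduction of a series over `A`. -/
abbrev lsResidue : LaurentSeries A →+* LaurentSeries (ResidueField A) := coeffMap (residue A)

theorem lsIncl_injective : Function.Injective (lsIncl A) :=
  fun a b h => HahnSeries.ext (funext fun n => A.subtype_injective (by
    simpa only [coeffMap_coeff] using congrArg (fun z : LaurentSeries K => z.coeff n) h))

theorem coeff_lsIncl_mem (s : LaurentSeries A) (n : ℤ) : (lsIncl A s).coeff n ∈ A := by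
  rw [coeffMap_coeff]
  exact (s.coeff n).2

theorem exists_lsIncl_eq {x : LaurentSeries K} (hx : ∀ n, x.coeff n ∈ A) :
    ∃ s : LaurentSeries A, lsIncl A s = x ∧ ∀ n, s.coeff n = ⟨_, hx n⟩ :=
  ⟨⟨fun n => ⟨_, hx n⟩, x.isPWO_support.mono fun n hn => by
    simpa [Function.mem_support, Subtype.ext_iff] using hn⟩, HahnSeries.ext rfl, fun _ => rfl⟩

theorem ne_zero_of_lsResidue {t : LaurentSeries A} (h : lsResidue A t ≠ 0) : lsIncl A t ≠ 0 := by
  intro h0
  rw [(lsIncl_injective A) (h0.trans (map_zero _).symm), map_zero] at h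
  exact h rfl

/-- A constant relating two integral series, the second with nonzero reduction, is integral. -/
theorem mem_of_C_mul_eq {c : K} {u v : LaurentSeries A} (hv : lsResidue A v ≠ 0)
    (h : lsIncl A u = HahnSeries.C c * lsIncl A v) : c ∈ A := by
  obtain ⟨n, hn⟩ : ∃ n, residue A (v.coeff n) ≠ 0 := by
    by_contra hc
    push Not at hc
    exact hv (by ext n; rw [coeffMap_coeff]; exact hc n)
  have hu : IsUnit (v.coeff n) := (residue_ne_zero_iff_isUnit _).mp hn
  obtain ⟨w, hw⟩ := hu
  have h1 := congrArg (fun s : LaurentSeries K => s.coeff n) h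
  simp only [HahnSeries.C_apply, HahnSeries.coeff_single_zero_mul, coeffMap_coeff] at h1
  have : c = (((u.coeff n) * (w⁻¹ : Aˣ) : A) : K) := by
    rw [MulMemClass.coe_mul, show ((u.coeff n : A) : K) = c * ((v.coeff n : A) : K) from h1,
      mul_assoc, ← MulMemClass.coe_mul, ← hw, Units.mul_inv, OneMemClass.coe_one, mul_one]
  rw [this]
  exact SetLike.coe_mem _

/-- Integral elements. -/
def IsLSInt (x : LaurentSeries K) : Prop :=
  ∃ s t : LaurentSeries A, lsIncl A t ∈ E ∧ lsResidue A t ≠ 0 ∧ x * lsIncl A t = lsIncl A s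

/-- The ring of integers. -/
def lsInt : Subring E where
  carrier := {x | IsLSInt A E (x : LaurentSeries K)}
  one_mem' := ⟨1, 1, by rw [map_one]; exact one_mem _, by rw [map_one]; exact one_ne_zero,
    by rw [map_one]; simp⟩
  zero_mem' := ⟨0, 1, by rw [map_one]; exact one_mem _, by rw [map_one]; exact one_ne_zero,
    by rw [map_zero]; simp⟩
  mul_mem' := by
    rintro x y ⟨s, t, ht, ht0, h⟩ ⟨s', t', ht', ht0', h'⟩
    refine ⟨s * s', t * t', by rw [map_mul]; exact mul_mem ht ht',
      by rw [map_mul]; exact mul_ne_zero ht0 ht0', ?_⟩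
    rw [map_mul, map_mul, MulMemClass.coe_mul, ← h, ← h']
    ring
  add_mem' := by
    rintro x y ⟨s, t, ht, ht0, h⟩ ⟨s', t', ht', ht0', h'⟩
    refine ⟨s * t' + s' * t, t * t', by rw [map_mul]; exact mul_mem ht ht',
      by rw [map_mul]; exact mul_ne_zero ht0 ht0', ?_⟩
    rw [map_mul, map_add, map_mul, map_mul, AddMemClass.coe_add, ← h, ← h']
    ring
  neg_mem' := by
    rintro x ⟨s, t, ht, ht0, h⟩
    exact ⟨-s, t, ht, ht0, by rw [map_neg, NegMemClass.coe_neg, neg_mul, h]⟩

theorem mem_lsInt_of_coeff {x : E} (hx : ∀ n, (x : LaurentSeries K).coeff n ∈ A) :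
    x ∈ lsInt A E := by
  obtain ⟨s, hs, -⟩ := exists_lsIncl_eq A hx
  exact ⟨s, 1, by rw [map_one]; exact one_mem _, by rw [map_one]; exact one_ne_zero,
    by rw [map_one, mul_one, hs]⟩

theorem lsIncl_mem_lsInt {s : LaurentSeries A} (hs : lsIncl A s ∈ E) :
    (⟨_, hs⟩ : E) ∈ lsInt A E :=
  mem_lsInt_of_coeff A E (coeff_lsIncl_mem A s)

/-- The value of the reduction. -/
def lsRedVal (x : lsInt A E) : LaurentSeries (ResidueField A) :=
  lsResidue A x.2.choose / lsResidue A x.2.choose_spec.choose

theorem lsRedVal_eq (x : lsInt A E) {s t : LaurentSeries A} (ht : lsResidue A t ≠ 0)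
    (h : ((x : E) : LaurentSeries K) * lsIncl A t = lsIncl A s) :
    lsRedVal A E x = lsResidue A s / lsResidue A t := by
  have key : ∀ s₀ t₀ : LaurentSeries A, lsResidue A t₀ ≠ 0 →
      ((x : E) : LaurentSeries K) * lsIncl A t₀ = lsIncl A s₀ →
      lsResidue A s₀ / lsResidue A t₀ = lsResidue A s / lsResidue A t := fun s₀ t₀ ht₀ h₀ => by
    rw [div_eq_div_iff ht₀ ht, ← map_mul, ← map_mul]
    refine congrArg _ (lsIncl_injective A ?_)
    rw [map_mul, map_mul, ← h, ← h₀]
    ring
  exact key _ _ x.2.choose_spec.choose_spec.2.1 x.2.choose_spec.choose_spec.2.2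

theorem exists_rep (x : lsInt A E) : ∃ s t : LaurentSeries A, lsIncl A t ∈ E ∧
    lsResidue A t ≠ 0 ∧ ((x : E) : LaurentSeries K) * lsIncl A t = lsIncl A s := x.2

/-- Coefficientwise reduction of integers. -/
def lsRed : lsInt A E →+* LaurentSeries (ResidueField A) where
  toFun := lsRedVal A E
  map_one' := by
    rw [lsRedVal_eq A E 1 (s := 1) (t := 1) (by rw [map_one]; exact one_ne_zero)
      (by rw [map_one]; simp), map_one, div_one]
  map_zero' := by
    rw [lsRedVal_eq A E 0 (s := 0) (t := 1) (by rw [map_one]; exact one_ne_zero)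
      (by rw [map_zero]; simp), map_zero, zero_div]
  map_mul' x y := by
    obtain ⟨s, t, -, ht0, h⟩ := exists_rep A E x
    obtain ⟨s', t', -, ht0', h'⟩ := exists_rep A E y
    rw [lsRedVal_eq A E x ht0 h, lsRedVal_eq A E y ht0' h',
      lsRedVal_eq A E (x * y) (s := s * s') (t := t * t') (by rw [map_mul]; exact mul_ne_zero ht0 ht0')
        (by rw [map_mul, map_mul, ← h, ← h']; push_cast; ring),
      map_mul, map_mul, mul_div_mul_comm]
  map_add' x y := by
    obtain ⟨s, t, -, ht0, h⟩ := exists_rep A E x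
    obtain ⟨s', t', -, ht0', h'⟩ := exists_rep A E y
    rw [lsRedVal_eq A E x ht0 h, lsRedVal_eq A E y ht0' h',
      lsRedVal_eq A E (x + y) (s := s * t' + s' * t) (t := t * t')
        (by rw [map_mul]; exact mul_ne_zero ht0 ht0')
        (by rw [map_mul, map_add, map_mul, map_mul, ← h, ← h']; push_cast; ring),
      map_add, map_mul, map_mul, map_mul, div_add_div _ _ ht0 ht0', mul_comm (lsResidue A t) (lsResidue A s')]

theorem lsRed_eq_div (x : lsInt A E) {s t : LaurentSeries A} (ht : lsResidue A t ≠ 0)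
    (h : ((x : E) : LaurentSeries K) * lsIncl A t = lsIncl A s) :
    lsRed A E x = lsResidue A s / lsResidue A t :=
  lsRedVal_eq A E x ht h

theorem lsRed_of_eq (x : lsInt A E) {s : LaurentSeries A}
    (h : ((x : E) : LaurentSeries K) = lsIncl A s) : lsRed A E x = lsResidue A s := by
  rw [lsRed_eq_div A E x (t := 1) (s := s) (by rw [map_one]; exact one_ne_zero)
    (by rw [map_one, mul_one, h]), map_one, div_one]

end FermatAgent.DeligneSerre.X1
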