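import Fermat.Agent.DeligneSerre.X1.GoodRed.Content
import Fermat.Agent.DeligneSerre.X1.GoodRed.LSInt

/-!
# The integers of `X₁(M)` at a place over `p ∤ M`

Every element of `x1Bar M` is a constant times a quotient of two integral series with nonzero
reduction, and the reductions of integral series of `x1Bar M` lie in `x1FieldC` of the residue
field.
-/

set_option autoImplicit false
set_option synthInstance.maxHeartbeats 200000

noncomputable section

open UpperHalfPlane hiding I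
open Function Polynomial CongruenceSubgroup
open scoped MatrixGroups

namespace FermatAgent.DeligneSerre.X1

open FermatAgent.Igusa FermatAgent.Igusa.Down FermatAgent.ModFun ModularCurve

local notation "Qb" => AlgebraicClosure ℚ

theorem infinite_residueField (A : ValuationSubring Qb) :
    Infinite (IsLocalRing.ResidueField A) :=
  have := isAlgClosed_residueField A
  IsAlgClosed.instInfinite

variable {L M : ℕ} [NeZero L] [NeZero M]

theorem mem_intFun_of_le {R R' : Subring ℂ} (h : ∀ z ∈ R, z ∈ R') {f : ℍ → ℂ}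
    (hf : f ∈ intFun L R) : f ∈ intFun L R' := by
  obtain ⟨h1, h2⟩ := (mem_intFun L R).mp hf
  exact (mem_intFun L R').mpr ⟨h1, fun γ => ⟨(h2 γ).1, fun n => h _ ((h2 γ).2 n)⟩⟩

/-- The expansions of invariant integral functions lie in `x1Bar M`. -/
theorem lsIncl_mem_x1Bar (A : ValuationSubring Qb) (hR : HasRoots L (cRing A))
    (hL : (L : ℂ)⁻¹ ∈ cRing A) (hML : M ∣ L) (h5 : 5 < M) {g : intFun L (cRing A)}
    (hg : ∀ γ ∈ gam M, γ • g = g) {s : LaurentSeries (cRing A)}
    (hs : intExp L (cRing A) g = qExpand (cRing A) L s) :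
    lsIncl A (coeffMap ((cEquiv A).symm : cRing A →+* A) s) ∈ x1Bar M := by
  let R1 : Subring ℂ := (qbarToC : Qb →+* ℂ).range
  let e : Qb ≃+* R1 :=
    RingEquiv.ofBijective (qbarToC : Qb →+* ℂ).rangeRestrict
      ⟨fun a b h => (qbarToC : Qb →+* ℂ).injective (congrArg Subtype.val h),
        (qbarToC : Qb →+* ℂ).rangeRestrict_surjective⟩
  let ρ : R1 →+* Qb := e.symm
  have hle : ∀ z ∈ cRing A, z ∈ R1 := by
    rintro z ⟨a, rfl⟩
    exact ⟨a, rfl⟩
  have hρC : (qbarToC : Qb →+* ℂ).comp ρ = R1.subtype :=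
    RingHom.ext fun r => congrArg Subtype.val (e.apply_symm_apply r)
  let g' : intFun L R1 := ⟨g, mem_intFun_of_le hle g.2⟩
  have hg' : ∀ γ ∈ gam M, γ • g' = g' := fun γ hγ => Subtype.ext (funext fun τ => by
    have := congrArg (fun f : intFun L (cRing A) => (f : ℍ → ℂ) τ) (hg γ hγ)
    simp only [FermatAgent.Igusa.smul_apply] at this ⊢
    exact this)
  obtain ⟨y, hy, hye⟩ := exists_mem_x1FieldC (ρ := ρ) (k := Qb) e.symm.surjective
    (fun r => hle _ (hR r)) (hle _ hL) hML h5 hg'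
  rw [x1Bar, laurentBaseChange_x1]
  convert hy using 1
  apply coeffMap_injective (qbarToC : Qb →+* ℂ).injective
  apply qExpand_injective (R := ℂ) L
  have h1 := congrArg (coeffMap (qbarToC : Qb →+* ℂ)) hye
  rw [coeffMap_qExpand, redExp, RingHom.comp_apply, coeffMap_coeffMap, hρC, coeffMap_intExp] at h1
  rw [← h1, lsIncl, coeffMap_coeffMap, coeffMap_coeffMap, ← coeffMap_qExpand]
  show _ = qExp L (g : ℍ → ℂ)
  rw [← coeffMap_intExp L (cRing A) g, hs]
  exact coeffMap_congr (RingHom.ext fun r => qbarToC_cEquiv_symm A r) _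

theorem exists_combo_of_adjoin {R : Subring ℂ} (hR : HasRoots L R) (hL : (L : ℂ)⁻¹ ∈ R)
    (hML : M ∣ L) {a : LaurentSeries Qb} (ha : a ∈ Algebra.adjoin Qb (x1Gens Qb M)) :
    ∃ h : ℍ → ℂ, IsCombo (L := L) M R h ∧
      qExp L h = qExpand ℂ L (coeffMap (qbarToC : Qb →+* ℂ) a) := by
  have hgen : ∀ (g : intFun L R) (_ : ∀ γ ∈ gam M, γ • g = g) (x : LaurentSeries R)
      (_ : intExp L R g = qExpand R L x) (y : LaurentSeries Qb)
      (_ : coeffMap (qbarToC : Qb →+* ℂ) y = coeffMap R.subtype x),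
      ∃ h : ℍ → ℂ, IsCombo (L := L) M R h ∧
        qExp L h = qExpand ℂ L (coeffMap (qbarToC : Qb →+* ℂ) y) := by
    intro g hg x hx y hy
    refine ⟨_, IsCombo.single (L := L) 1 g hg, ?_⟩
    simp only [map_one, one_mul]
    rw [hy, ← coeffMap_qExpand, ← hx, coeffMap_intExp]
  induction ha using Algebra.adjoin_induction with
  | mem a ha =>
    rcases ha with (rfl | rfl) | ⟨i, rfl⟩
    · refine hgen (polyInt L R X) (fun γ _ => smul_polyInt L R γ X) (jqModC R) ?_ _ ?_
      · rw [intExp_polyInt, gevC_X]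
      · rw [coeffMap_jqModC, coeffMap_jqModC]
    · refine hgen (genFam hR hL hML none) (fun γ hγ => smul_genFam hR hL hML none hγ) _
        (intExp_genFam hR hL hML none) _ ?_
      simp only [famSer]
      rw [coeffMap_jqNModC, coeffMap_jqNModC]
    · refine hgen (genFam hR hL hML (some i)) (fun γ hγ => smul_genFam hR hL hML _ hγ) _
        (intExp_genFam hR hL hML (some i)) _ ?_
      simp only [famSer]
      rw [coeffMap_genSer, coeffMap_genSer]
  | algebraMap c =>
    refine ⟨_, IsCombo.single (L := L) c 1 (fun γ _ => smul_one γ), ?_⟩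
    have e : (fun τ => qbarToC c * ((1 : intFun L R) : ℍ → ℂ) τ) =
        ((algebraMap ℂ (cuspRingAt L) (qbarToC c) : cuspRingAt L) : ℍ → ℂ) := by
      funext τ; simp
    rw [e, ← qExpHom_apply, AlgHom.commutes, algebraMap_laurentSeries_eq_single,
      algebraMap_laurentSeries_eq_single, coeffMap_single, qExpand_single, mul_zero]
    rfl
  | add a b _ _ ha hb =>
    obtain ⟨h, hh, he⟩ := ha
    obtain ⟨h', hh', he'⟩ := hb
    refine ⟨h + h', hh.add hh', ?_⟩
    have m := hh.mem_cuspRingAt 1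
    have m' := hh'.mem_cuspRingAt 1
    rw [compSmul_one] at m m'
    rw [map_add, map_add, ← he, ← he']
    exact map_add (qExpHom L) ⟨h, m⟩ ⟨h', m'⟩
  | mul a b _ _ ha hb =>
    obtain ⟨h, hh, he⟩ := ha
    obtain ⟨h', hh', he'⟩ := hb
    refine ⟨h * h', hh.mul hh', ?_⟩
    have m := hh.mem_cuspRingAt 1
    have m' := hh'.mem_cuspRingAt 1
    rw [compSmul_one] at m m'
    rw [map_mul, map_mul, ← he, ← he']
    exact map_mul (qExpHom L) ⟨h, m⟩ ⟨h', m'⟩

variable (A : ValuationSubring Qb) {p : ℕ} (hp : p.Prime) (hA : A.LiesOverPrime p) (h5 : 5 < M)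

include hp hA h5 in
/-- A polynomial in the generators is a constant times an integral series with nonzero reduction. -/
theorem exists_adjoin_content (hpL : ¬ p ∣ L) (hML : M ∣ L) {a : LaurentSeries Qb}
    (ha : a ∈ Algebra.adjoin Qb (x1Gens Qb M)) (ha0 : a ≠ 0) :
    ∃ (c : Qb) (s : LaurentSeries A), c ≠ 0 ∧ a = HahnSeries.C c * lsIncl A s ∧
      lsResidue A s ≠ 0 ∧ lsResidue A s ∈ x1FieldC (IsLocalRing.ResidueField A) M ∧
      lsIncl A s ∈ x1Bar M := by
  obtain ⟨S, hS, hSA, hR0, hL0⟩ := exists_coeffRing A hp hA hpL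
  obtain ⟨h, hh, he⟩ := exists_combo_of_adjoin hR0 hL0 hML ha
  have hne : h ≠ 0 := fun h0 => ha0 <| by
    apply coeffMap_injective (qbarToC : Qb →+* ℂ).injective
    apply qExpand_injective (R := ℂ) L
    rw [map_zero, map_zero, ← he, h0]
    exact map_zero (qExpHom L)
  obtain ⟨x₀, f, hx0, hf, hf0, hfe⟩ := hh.exists_content A hp hA hpL S hSA hne
  obtain ⟨s', hs'⟩ := exists_series_gam f hf
  have := infinite_residueField A
  have hR := hasRoots_cRing A L
  have hL := inv_natCast_mem_cRing A hp hA hpL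
  obtain ⟨y, hy, hye⟩ := exists_mem_x1FieldC (ρ := cRes A) (cRes_surjective A) hR hL hML h5 hf
  have hred : redExp L (cRing A) (cRes A) f =
      qExpand _ L (lsResidue A (coeffMap ((cEquiv A).symm : cRing A →+* A) s')) := by
    rw [redExp, RingHom.comp_apply, hs', coeffMap_qExpand, lsResidue, coeffMap_coeffMap]
    rfl
  refine ⟨x₀, coeffMap ((cEquiv A).symm : cRing A →+* A) s', hx0, ?_, fun h0 => ?_, ?_,
    lsIncl_mem_x1Bar A hR hL hML h5 hf hs'⟩
  · apply coeffMap_injective (qbarToC : Qb →+* ℂ).injective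
    apply qExpand_injective (R := ℂ) L
    rw [← he, map_mul, map_mul, FermatAgent.Igusa.coeffMap_C, lsIncl, coeffMap_coeffMap,
      coeffMap_coeffMap, HahnSeries.C_apply, qExpand_single, mul_zero, ← HahnSeries.C_apply]
    have hm := f.2
    have hmem := (((mem_intFun L _).mp f.2).2 1).1
    rw [compSmul_one] at hmem
    have e : h = ((algebraMap ℂ (cuspRingAt L) (qbarToC x₀) * ⟨(f : ℍ → ℂ), hmem⟩ : cuspRingAt L)
        : ℍ → ℂ) := by
      funext τ; simp [hfe]
    rw [e, ← qExpHom_apply, map_mul, AlgHom.commutes, algebraMap_laurentSeries_eq_single,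
      qExpHom_apply, ← coeffMap_intExp L (cRing A) f, hs', coeffMap_qExpand, ← HahnSeries.C_apply]
    congr 2
    exact coeffMap_congr (RingHom.ext fun r => (qbarToC_cEquiv_symm A r).symm) _
  · exact hf0 (by rw [hred, h0, map_zero])
  · rw [hred] at hye
    rwa [qExpand_injective L hye]

variable (hpM : ¬ p ∣ M)

theorem mem_adjoin_iff_x1Bar {x : LaurentSeries Qb} (hx : x ∈ x1Bar M) :
    ∃ a ∈ Algebra.adjoin Qb (x1Gens Qb M), ∃ b ∈ Algebra.adjoin Qb (x1Gens Qb M), x = a / b := by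
  rw [x1Bar, laurentBaseChange_x1, x1FieldC] at hx
  obtain ⟨a, ha, b, hb, h⟩ := IntermediateField.mem_adjoin_iff_div.mp hx
  exact ⟨a, ha, b, hb, h⟩

include hp hA h5 hpM in
/-- Nonzero elements are constants times quotients of integral series with nonzero reduction. -/
theorem exists_x1Bar_content {x : LaurentSeries Qb} (hx : x ∈ x1Bar M) (hx0 : x ≠ 0) :
    ∃ (c : Qb) (s t : LaurentSeries A), c ≠ 0 ∧ lsResidue A s ≠ 0 ∧ lsResidue A t ≠ 0 ∧
      lsResidue A s ∈ x1FieldC (IsLocalRing.ResidueField A) M ∧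
      lsResidue A t ∈ x1FieldC (IsLocalRing.ResidueField A) M ∧
      lsIncl A t ∈ x1Bar M ∧ x * lsIncl A t = HahnSeries.C c * lsIncl A s := by
  have : Fact p.Prime := ⟨hp⟩
  obtain ⟨a, ha, b, hb, rfl⟩ := mem_adjoin_iff_x1Bar hx
  have ha0 : a ≠ 0 := fun h => hx0 (by rw [h, zero_div])
  have hb0 : b ≠ 0 := fun h => hx0 (by rw [h, div_zero])
  have hpL := not_dvd_auxLevel hp hpM
  obtain ⟨ca, s, hca, rfl, hs0, hs, -⟩ :=
    exists_adjoin_content A hp hA h5 hpL (dvd_mul_right M _) ha ha0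
  obtain ⟨cb, t, hcb, rfl, ht0, ht, htm⟩ :=
    exists_adjoin_content A hp hA h5 hpL (dvd_mul_right M _) hb hb0
  refine ⟨ca / cb, s, t, div_ne_zero hca hcb, hs0, ht0, hs, ht, htm, ?_⟩
  have ht' : lsIncl A t ≠ 0 := ne_zero_of_lsResidue A ht0
  have hC : (HahnSeries.C cb : LaurentSeries Qb) ≠ 0 :=
    (map_ne_zero_iff _ HahnSeries.C_injective).mpr hcb
  rw [map_div₀]
  field_simp

include hp hA h5 hpM in
/-- Reductions of integral series of the field lie in the field over the residue field. -/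
theorem lsResidue_mem_x1FieldC {u : LaurentSeries A} (hu : lsIncl A u ∈ x1Bar M) :
    lsResidue A u ∈ x1FieldC (IsLocalRing.ResidueField A) M := by
  by_cases h0 : lsIncl A u = 0
  · rw [(lsIncl_injective A) (h0.trans (map_zero _).symm), map_zero]
    exact zero_mem _
  obtain ⟨c, s, t, -, hs0, ht0, hs, ht, -, h⟩ := exists_x1Bar_content A hp hA h5 hpM hu h0
  rw [← map_mul] at h
  have hc := mem_of_C_mul_eq A hs0 h
  have h' : u * t = HahnSeries.C (⟨c, hc⟩ : A) * s := lsIncl_injective A (by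
    rw [h, map_mul, FermatAgent.Igusa.coeffMap_C]; rfl)
  have h'' := congrArg (lsResidue A) h'
  rw [map_mul, map_mul, FermatAgent.Igusa.coeffMap_C] at h''
  rw [eq_div_of_mul_eq ht0 h'']
  refine div_mem (mul_mem ?_ hs) ht
  rw [HahnSeries.C_apply, ← algebraMap_laurentSeries_eq_single]
  exact IntermediateField.algebraMap_mem _ _

/-- The integers of `x1Bar M` at `A`. -/
abbrev x1Int (A : ValuationSubring Qb) (M : ℕ) [NeZero M] : Subring (x1Bar M) :=
  lsInt A (x1Bar M)

/-- Reduction to the fibre. -/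
def x1Red : x1Int A M →+* x1FieldC (IsLocalRing.ResidueField A) M :=
  (lsRed A (x1Bar M)).codRestrict _ fun x => by
    obtain ⟨s, t, ht, ht0, h⟩ := exists_rep A (x1Bar M) x
    rw [lsRed_eq_div A _ x ht0 h]
    exact div_mem (lsResidue_mem_x1FieldC A hp hA h5 hpM (h ▸ mul_mem x.1.2 ht))
      (lsResidue_mem_x1FieldC A hp hA h5 hpM ht)

theorem coe_x1Red (x : x1Int A M) :
    (x1Red A hp hA h5 hpM x : LaurentSeries (IsLocalRing.ResidueField A)) =
      lsRed A (x1Bar M) x := rfl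

include hp hA h5 hpM in
/-- Every nonzero function can be normalised. -/
theorem exists_x1_normalize (f : x1Bar M) (hf : f ≠ 0) :
    ∃ (c : Qb) (h : c • f ∈ x1Int A M), x1Red A hp hA h5 hpM ⟨c • f, h⟩ ≠ 0 := by
  obtain ⟨c, s, t, hc, hs0, ht0, -, -, htm, h⟩ :=
    exists_x1Bar_content A hp hA h5 hpM f.2 fun h => hf (Subtype.ext h)
  have he : ((c⁻¹ • f : x1Bar M) : LaurentSeries Qb) * lsIncl A t = lsIncl A s := by
    rw [show ((c⁻¹ • f : x1Bar M) : LaurentSeries Qb) = HahnSeries.C c⁻¹ * (f : LaurentSeries Qb)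
      from coe_smul_series Qb c⁻¹ f, mul_assoc, h, C_inv_mul_C_mul Qb hc]
  refine ⟨c⁻¹, ⟨s, t, htm, ht0, he⟩, fun h0 => ?_⟩
  have h1 := congrArg Subtype.val h0
  rw [coe_x1Red] at h1
  exact div_ne_zero hs0 ht0 ((lsRed_eq_div A _ ⟨c⁻¹ • f, _⟩ ht0 he).symm.trans h1)

end FermatAgent.DeligneSerre.X1
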