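import Fermat.Agent.DeligneSerre.X1.Basic
import Fermat.Agent.Igusa.Fibre.Wp

/-!
# Summing division values over a row

For `M ∣ L` the sum of the expansions of `℘` at the points `((L/M) a, (L/M) r)`, `r` modulo `M`,
is `M²` times the expansion `wpSer M a` in `q`.
-/

set_option autoImplicit false

noncomputable section

open Complex Finset

namespace FermatAgent.DeligneSerre.X1

open FermatAgent.Igusa

/-- The point `((L/M) a, (L/M) r)`. -/
def row (L M : ℕ) (a r : ℤ) : ℤ × ℤ := ((L / M : ℕ) * a, (L / M : ℕ) * r)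

variable {L M : ℕ} [NeZero L]

omit [NeZero L] in
theorem row_mul (hML : M ∣ L) : ((L / M : ℕ) : ℤ) * (M : ℤ) = L := by
  exact_mod_cast Nat.div_mul_cancel hML

theorem div_ne_zero' (hML : M ∣ L) : L / M ≠ 0 := fun h =>
  NeZero.ne L (by simpa [h] using (Nat.div_mul_cancel hML).symm)

theorem dvd_row_iff (hML : M ∣ L) (x : ℤ) : (L : ℤ) ∣ ((L / M : ℕ) : ℤ) * x ↔ (M : ℤ) ∣ x := by
  rw [← row_mul hML]
  exact mul_dvd_mul_iff_left (by exact_mod_cast div_ne_zero' hML)

theorem nonzeroMod_rowLvl (hML : M ∣ L) {a : ℤ} (ha : ¬ (M : ℤ) ∣ a) (r : ℤ) :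
    NonzeroMod L (row L M a r) := fun h => ha ((dvd_row_iff hML a).mp h.1)

variable [NeZero M]

omit [NeZero M] in
theorem sum_zetaRoot_pow (hML : M ∣ L) (m : ℕ) :
    ∑ r ∈ range M, (zetaRoot L ^ (((L / M : ℕ) : ℤ) * (r : ℕ))) ^ m =
      if M ∣ m then (M : ℂ) else 0 := by
  set ω : ℂ := zetaRoot L ^ (((L / M : ℕ) : ℤ) * (m : ℕ)) with hω
  have hterm : ∀ r : ℕ, (zetaRoot L ^ (((L / M : ℕ) : ℤ) * (r : ℕ))) ^ m = ω ^ r := by
    intro r
    rw [hω, ← zpow_natCast (zetaRoot L ^ _) m, ← zpow_natCast _ r, ← zpow_mul, ← zpow_mul]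
    congr 1
    ring
  simp only [hterm]
  have hωM : ω ^ M = 1 := by
    rw [hω, ← zpow_natCast _ M, ← zpow_mul, zetaRoot_zpow_eq_one_iff]
    exact ⟨m, by rw [mul_right_comm, row_mul hML]⟩
  have hiff : ω = 1 ↔ M ∣ m := by
    rw [hω, zetaRoot_zpow_eq_one_iff, dvd_row_iff hML, Int.natCast_dvd_natCast]
  split_ifs with h
  · rw [hiff.mpr h]; simp
  · rw [geom_sum_eq (fun h' => h (hiff.mp h')), hωM, sub_self, zero_div]

/-- The arithmetic coefficients summed over a row. -/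
theorem sum_arithCoeff (hML : M ∣ L) (c n : ℕ) :
    ∑ r ∈ range M,
        arithCoeff L (L / M * c) (zetaRoot L ^ (((L / M : ℕ) : ℤ) * (r : ℕ))) n =
      if L ∣ n then (M : ℂ) ^ 2 * ((arithCoeff M c (1 : ℤ) (n / L) : ℤ) : ℂ) else 0 := by
  classical
  set e := L / M with he
  have heM : e * M = L := Nat.div_mul_cancel hML
  have he0 : e ≠ 0 := div_ne_zero' hML
  have hM0 : M ≠ 0 := NeZero.ne M
  simp only [arithCoeff]
  rw [Finset.sum_comm]
  simp only [← Finset.mul_sum]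
  simp only [he, sum_zetaRoot_pow hML]
  simp only [← he]
  simp only [mul_ite, mul_zero]
  rw [Finset.sum_ite, Finset.sum_const_zero, add_zero, Finset.filter_filter]
  split_ifs with hn
  · obtain ⟨n', rfl⟩ := hn
    rw [Nat.mul_div_cancel_left _ (NeZero.pos L), Int.cast_sum, Finset.mul_sum]
    refine (Finset.sum_nbij' (i := fun d => e * d) (j := fun d => d / e) ?_ ?_ ?_ ?_ ?_).symm
    · intro d hd
      simp only [Finset.mem_filter, Nat.mem_divisors] at hd ⊢
      obtain ⟨⟨⟨k, hk⟩, hn'⟩, hmod⟩ := hd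
      have hd0 : 0 < d := Nat.pos_of_ne_zero fun h => hn' (by simp [hk, h])
      refine ⟨⟨⟨M * k, ?_⟩, mul_ne_zero (NeZero.ne L) hn'⟩, ?_, ?_⟩
      · rw [hk, ← heM]; ring
      · rw [← heM, Nat.mul_mod_mul_left, Nat.mul_mod_mul_left, hmod]
      · refine ⟨k, ?_⟩
        rw [hk, ← heM, show e * M * (d * k) = e * d * (M * k) by ring,
          Nat.mul_div_cancel_left _ (Nat.mul_pos (Nat.pos_of_ne_zero he0) hd0)]
    · intro d hd
      simp only [Finset.mem_filter, Nat.mem_divisors] at hd ⊢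
      obtain ⟨⟨hdn, hn'⟩, hmod, hM⟩ := hd
      obtain ⟨d', rfl⟩ : e ∣ d := by
        have h1 : e ∣ d % L := by
          rw [hmod, ← heM, Nat.mul_mod_mul_left]
          exact dvd_mul_right _ _
        exact (Nat.dvd_mod_iff ⟨M, heM.symm⟩).mp h1
      rw [Nat.mul_div_cancel_left _ (Nat.pos_of_ne_zero he0)]
      refine ⟨⟨?_, right_ne_zero_of_mul hn'⟩, ?_⟩
      · have h2 : e * d' * M ∣ L * n' := Nat.mul_dvd_of_dvd_div hdn hM
        rw [← heM, show e * d' * M = e * M * d' by ring] at h2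
        exact (Nat.mul_dvd_mul_iff_left (Nat.mul_pos (Nat.pos_of_ne_zero he0)
          (Nat.pos_of_ne_zero hM0))).mp h2
      · rw [← heM, Nat.mul_mod_mul_left, Nat.mul_mod_mul_left] at hmod
        exact Nat.eq_of_mul_eq_mul_left (Nat.pos_of_ne_zero he0) hmod
    · intro d _
      exact Nat.mul_div_cancel_left _ (Nat.pos_of_ne_zero he0)
    · intro d hd
      simp only [Finset.mem_filter, Nat.mem_divisors] at hd
      have h1 : e ∣ d % L := by
        rw [hd.2.1, ← heM, Nat.mul_mod_mul_left]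
        exact dvd_mul_right _ _
      exact Nat.mul_div_cancel' ((Nat.dvd_mod_iff ⟨M, heM.symm⟩).mp h1)
    · intro d hd
      simp only [Finset.mem_filter, Nat.mem_divisors] at hd
      obtain ⟨⟨⟨k, rfl⟩, hn'⟩, -⟩ := hd
      have hd0 : 0 < d := Nat.pos_of_ne_zero (left_ne_zero_of_mul hn')
      rw [← heM, show e * M * (d * k) = e * d * (M * k) by ring,
        Nat.mul_div_cancel_left _ (Nat.mul_pos (Nat.pos_of_ne_zero he0) hd0),
        Nat.mul_div_cancel_left _ hd0]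
      simp only [one_pow, mul_one, Nat.cast_mul, Int.cast_natCast]
      ring
  · refine Finset.sum_eq_zero fun d hd => absurd ?_ hn
    simp only [Finset.mem_filter, Nat.mem_divisors] at hd
    obtain ⟨⟨hdn, hn'⟩, hmod, hM⟩ := hd
    have h1 : e ∣ d := by
      refine (Nat.dvd_mod_iff ⟨M, heM.symm⟩).mp ?_
      rw [hmod, ← heM, Nat.mul_mod_mul_left]
      exact dvd_mul_right _ _
    rw [← heM]
    exact (mul_dvd_mul_right h1 M).trans (Nat.mul_dvd_of_dvd_div hdn hM)

omit [NeZero L] [NeZero M] in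
theorem wpCoeff_row (hML : M ∣ L) {a : ℕ} (r : ℤ) {n : ℕ} (hn : n ≠ 0) :
    wpCoeff L (zetaRoot L) (row L M a r) n =
      arithCoeff L (L / M * (a % M)) (zetaRoot L ^ (((L / M : ℕ) : ℤ) * r)) n +
        arithCoeff L (L / M * (M - a % M)) (zetaRoot L ^ (((L / M : ℕ) : ℤ) * (-r))) n -
        2 * arithCoeff L L 1 n := by
  have hLe : L / M * M = L := Nat.div_mul_cancel hML
  have hmod : ((((L / M : ℕ) : ℤ) * (a : ℕ)) % (L : ℕ)).toNat = L / M * (a % M) := by
    rw [← Nat.cast_mul, ← Int.natCast_emod, Int.toNat_natCast]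
    generalize L / M = e at hLe ⊢
    rw [← hLe, Nat.mul_mod_mul_left]
  rw [wpCoeff, if_neg hn, row]
  dsimp only
  rw [hmod, Nat.mul_sub, hLe, mul_neg, zpow_neg]

/-- The coefficient of `t ^ n` of `℘ (a) - ℘ (b)`, summed over the rows. -/
theorem sum_wpDiffCoeff (hML : M ∣ L) {a b : ℕ} (ha : ¬ M ∣ a) (hb : ¬ M ∣ b) (n : ℕ) :
    ∑ r ∈ range M, wpDiffCoeff L (row L M a (r : ℕ)) (row L M b (r : ℕ)) n =
      if L ∣ n then
        (M : ℂ) ^ 2 * ((PowerSeries.coeff (n / L) (wpSer M a - wpSer M b) : ℤ) : ℂ)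
      else 0 := by
  rcases eq_or_ne n 0 with rfl | hn
  · have h0 : ∀ {c : ℕ}, ¬ M ∣ c → ∀ r : ℤ, ¬ (L : ℤ) ∣ (row L M c r).1 := fun hc r h =>
      hc (Int.natCast_dvd_natCast.mp ((dvd_row_iff hML _).mp h))
    simp [wpDiffCoeff, wpCoeff_zero, h0 ha, h0 hb, wpSer]
  have hrefl : ∀ c : ℕ, ∑ r ∈ range M,
      arithCoeff L (L / M * c) (zetaRoot L ^ (((L / M : ℕ) : ℤ) * (-(r : ℕ) : ℤ))) n =
      ∑ r ∈ range M, arithCoeff L (L / M * c) (zetaRoot L ^ (((L / M : ℕ) : ℤ) * (r : ℕ))) n := by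
    intro c
    simp only [arithCoeff]
    rw [Finset.sum_comm, Finset.sum_comm (s := range M)]
    refine Finset.sum_congr rfl fun d _ => ?_
    rw [← Finset.mul_sum, ← Finset.mul_sum]
    congr 1
    simp only [mul_neg, zpow_neg, inv_pow]
    have h := congrArg (starRingEnd ℂ) (sum_zetaRoot_pow hML (n / d))
    rw [map_sum] at h
    rw [sum_zetaRoot_pow hML (n / d)]
    refine (Finset.sum_congr rfl fun r _ => ?_).trans (h.trans (by split_ifs <;> simp))
    rw [map_pow, ← inv_pow, ← Complex.inv_eq_conj (norm_zetaRoot_zpow L _)]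
  simp only [wpDiffCoeff, wpCoeff_row hML _ hn, sub_sub_sub_cancel_right, Finset.sum_sub_distrib,
    Finset.sum_add_distrib, hrefl, sum_arithCoeff hML]
  rcases em (L ∣ n) with h | h
  · have hn' : n / L ≠ 0 := by
      obtain ⟨k, rfl⟩ := h
      rw [Nat.mul_div_cancel_left _ (NeZero.pos L)]
      exact right_ne_zero_of_mul hn
    simp only [if_pos h, wpSer, map_sub, PowerSeries.coeff_mk, if_neg hn']
    push_cast
    ring
  · simp only [if_neg h]; ring

end FermatAgent.DeligneSerre.X1
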