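import Fermat.Agent.DeligneSerre.X1.GoodRed.Gens
import Fermat.Agent.Igusa.Down.FibreLift
import Fermat.Agent.DeligneSerre.X1.Field

/-!
# The reduced generators separate the cosets of `± Γ₁(M)`
-/

set_option autoImplicit false

noncomputable section

open UpperHalfPlane hiding I
open Complex Function CongruenceSubgroup
open scoped MatrixGroups

namespace FermatAgent.DeligneSerre.X1

open FermatAgent.Igusa FermatAgent.Igusa.Down FermatAgent.ModFun ModularCurve

variable {L M : ℕ} [NeZero L] [NeZero M] {R : Subring ℂ} {k : Type*} [Field k] (ρ : R →+* k)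

omit [NeZero L] [NeZero M] in
theorem gamma_le_gam (hML : M ∣ L) : CongruenceSubgroup.Gamma L ≤ gam M := fun γ hγ => by
  obtain ⟨h00, h01, h10, h11⟩ := CongruenceSubgroup.Gamma_mem.mp hγ
  have hc : ∀ x : ℤ, ((x : ZMod L).cast : ZMod M) = x := fun x => ZMod.cast_intCast hML x
  refine ⟨Gamma0_mem.mpr ?_, Or.inl ?_⟩
  · rw [← hc, h10, ZMod.cast_zero]
  · rw [← hc, h11, ZMod.cast_one hML]

set_option maxHeartbeats 400000 in
/-- The reduced `j(M τ)` has trivial stabiliser modulo `Γ₀(M)`. -/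
theorem mem_gamma0_of_redExp_thetaAt (hR : HasRoots L R) (hML : M ∣ L) {δ : SL(2, ℤ)}
    (h : redExp L R ρ (δ • thetaAt hR hML) = redExp L R ρ (thetaAt hR hML)) :
    δ ∈ Gamma0 M := by
  obtain ⟨γ', a, e, _, _, b, hae, hdvd, h1, -⟩ := FermatAgent.Igusa.exists_dil_smul M δ⁻¹
  by_cases haM : a = M
  · rw [haM] at hdvd
    rw [← Subgroup.inv_mem_iff, Gamma0_mem, ZMod.intCast_zmod_eq_zero_iff_dvd]
    exact hdvd
  exfalso
  obtain ⟨c, hc⟩ := (Dvd.intro_left a hae).trans hML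
  have : NeZero c := ⟨fun h => NeZero.ne L (by simp [hc, h])⟩
  have hne : e ≠ 0 := NeZero.ne e
  have ha : a < M := lt_of_le_of_ne
    (hae ▸ Nat.le_mul_of_pos_right a (Nat.pos_of_ne_zero hne)) haM
  have hcL : c ≤ L := hc ▸ Nat.le_mul_of_pos_left c (Nat.pos_of_ne_zero hne)
  have hlt : a * c < M * L := Nat.mul_lt_mul_of_lt_of_le ha hcL (NeZero.pos L)
  have hq : qExp L ((δ • thetaAt hR hML : intFun L R) : ℍ → ℂ) =
      qExpand ℂ (a * c) (twist (expUnit ((b : ℝ) / e)) (jqModC ℂ)) := by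
    rw [← qLaurent_jFun, ← qExp_comp_ut jFun_mem_cuspRing b hc.symm]
    congr 1
    funext τ
    show jFun (dil M (δ⁻¹ • τ)) = jFun (ut a e b τ)
    rw [h1, jFun_smul]
  have hzero : (qExp L ((δ • thetaAt hR hML : intFun L R) : ℍ → ℂ)).coeff
      (((L * M : ℕ) : ℤ) * (-1)) = 0 := by
    rw [hq]
    by_cases hd : ((a * c : ℕ) : ℤ) ∣ ((L * M : ℕ) : ℤ) * (-1)
    · obtain ⟨m, hm⟩ := hd
      rw [hm, qExpand_coeff_mul, twist_coeff, coeff_jqModC_of_lt ℂ (k := m) ?_, mul_zero]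
      by_contra hcon
      have h2 : ((a * c : ℕ) : ℤ) * (-1) ≤ ((a * c : ℕ) : ℤ) * m :=
        mul_le_mul_of_nonneg_left (not_lt.mp hcon) (Int.natCast_nonneg _)
      rw [← hm] at h2
      have : ((a * c : ℕ) : ℤ) < ((L * M : ℕ) : ℤ) := by
        exact_mod_cast mul_comm L M ▸ hlt
      omega
    · exact qExpand_coeff_of_not_dvd _ _ hd
  have h0 : (intExp L R (δ • thetaAt hR hML)).coeff (((L * M : ℕ) : ℤ) * (-1)) = 0 :=
    Subtype.ext (by rw [coe_intExp_coeff, hzero, Subring.coe_zero])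
  have h3 := congrArg (fun s : LaurentSeries k => s.coeff (((L * M : ℕ) : ℤ) * (-1))) h
  simp only [redExp_thetaAt, jqNModC, qExpand_qExpand] at h3
  rw [qExpand_coeff_mul, coeff_jqModC_neg_one, redExp, RingHom.comp_apply, coeffMap_coeff, h0,
    map_zero] at h3
  exact zero_ne_one h3

omit [NeZero L] [NeZero M] in
theorem arithCoeff_one (K : Type*) [CommRing K] (M c : ℕ) :
    arithCoeff M c (1 : K) 1 = if 1 % M = c % M then 1 else 0 := by
  simp [arithCoeff, Finset.filter_singleton]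
  split_ifs <;> simp

omit [NeZero L] [NeZero M] in
theorem coeff_one_wpSer (hM : 2 < M) (a : ℕ) :
    PowerSeries.coeff 1 (wpSer M a) =
      if (a : ZMod M) = 1 ∨ (a : ZMod M) = -1 then 1 else 0 := by
  have h1 : 1 % M = 1 := Nat.mod_eq_of_lt (by omega)
  have hm : a % M < M := Nat.mod_lt _ (by omega)
  have e1 : (a : ZMod M) = 1 ↔ a % M = 1 := by
    rw [← Nat.cast_one, ZMod.natCast_eq_natCast_iff', h1]
  have e2 : (a : ZMod M) = -1 ↔ a % M = M - 1 := by
    rw [eq_neg_iff_add_eq_zero, ← Nat.cast_one, ← Nat.cast_add, ZMod.natCast_eq_zero_iff, Nat.dvd_iff_mod_eq_zero, Nat.add_mod, h1]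
    rcases Nat.lt_or_ge (a % M + 1) M with h | h
    · rw [Nat.mod_eq_of_lt h]; omega
    · rw [show a % M + 1 = M by omega, Nat.mod_self]; omega
  have h2 : (M - a % M) % M = 1 ↔ a % M = M - 1 := by
    rcases Nat.eq_zero_or_pos (a % M) with h | h
    · rw [h, Nat.sub_zero, Nat.mod_self]; omega
    · rw [Nat.mod_eq_of_lt (by omega)]; omega
  rw [wpSer, PowerSeries.coeff_mk, if_neg one_ne_zero]
  simp only [arithCoeff_one, h1, Nat.mod_mod, Nat.mod_self, e1, e2]
  rw [if_neg (show ¬ (1 : ℕ) = 0 by omega)]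
  simp only [eq_comm (a := (1 : ℕ)), h2]
  split_ifs <;> omega

omit [NeZero L] in
/-- The first coefficients of the generators. -/
theorem coeff_genSer_lead (A : Type*) [CommRing A] (hM : 2 < M) (a b : ℕ) :
    (genSer A M a b).coeff (-(M : ℤ) + 1) =
      ((PowerSeries.coeff 1 (wpSer M a - wpSer M b) : ℤ) : A) := by
  rw [genSer]
  set x : LaurentSeries A :=
    HahnSeries.ofPowerSeries ℤ A ((wpSer M a - wpSer M b).map (Int.castRingHom A))
  have hx : ∀ i < (0 : ℤ), x.coeff i = 0 := fun i hi => by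
    simp only [x, PowerSeries.coeff_coe, if_pos hi]
  have hx1 : x.coeff 1 = ((PowerSeries.coeff 1 (wpSer M a - wpSer M b) : ℤ) : A) := by
    rw [show (1 : ℤ) = ((1 : ℕ) : ℤ) from rfl]
    simp only [x, HahnSeries.ofPowerSeries_apply_coeff, PowerSeries.coeff_map]
    rfl
  set z := qExpand A M (e46Ser A) - HahnSeries.single (-(M : ℤ)) 1 with hz
  have hMp : (0 : ℤ) < M := by omega
  have hzb : ∀ j < (0 : ℤ), z.coeff j = 0 := by
    intro j hj
    rw [hz, HahnSeries.coeff_sub]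
    by_cases hd : (M : ℤ) ∣ j
    · obtain ⟨c, rfl⟩ := hd
      rw [qExpand_coeff_mul]
      have hc : c ≤ -1 := by nlinarith
      rcases hc.lt_or_eq with hc | rfl
      · rw [(e46Ser_lead A).1 c hc, HahnSeries.coeff_single_of_ne (by nlinarith), sub_zero]
      · rw [(e46Ser_lead A).2, mul_neg, mul_one, HahnSeries.coeff_single_same, sub_self]
    · rw [qExpand_coeff_of_not_dvd _ _ hd,
        HahnSeries.coeff_single_of_ne fun h => hd ⟨-1, by rw [h]; ring⟩, sub_zero]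
  rw [show qExpand A M (e46Ser A) = HahnSeries.single (-(M : ℤ)) 1 + z by rw [hz]; ring, mul_add,
    HahnSeries.coeff_add, HahnSeries.coeff_mul_single, mul_one,
    (coeff_mul_of_bound hx hzb).1 _ (by omega), add_zero,
    show -(M : ℤ) + 1 - -(M : ℤ) = 1 by ring, hx1]

/-- An index avoiding `0`, `±1` and `±u`. -/
theorem exists_index (hM : 5 < M) (u : ZMod M) :
    ∃ b : ℕ, b < M ∧ ¬ M ∣ b ∧ (b : ZMod M) ≠ 1 ∧ (b : ZMod M) ≠ -1 ∧ (b : ZMod M) ≠ u ∧
      (b : ZMod M) ≠ -u := by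
  classical
  have hcard : ({0, 1, -1, u, -u} : Finset (ZMod M)).card < Fintype.card (ZMod M) := by
    rw [ZMod.card]
    exact lt_of_le_of_lt Finset.card_le_five hM
  obtain ⟨x, hx⟩ : ∃ x, x ∉ ({0, 1, -1, u, -u} : Finset (ZMod M)) := by
    by_contra h
    push Not at h
    exact hcard.ne (by rw [Finset.eq_univ_iff_forall.mpr h, Finset.card_univ])
  simp only [Finset.mem_insert, Finset.mem_singleton, not_or] at hx
  refine ⟨x.val, ZMod.val_lt x, fun h => hx.1 ?_, ?_⟩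
  · rw [← ZMod.natCast_zmod_val x, ZMod.natCast_eq_zero_iff]
    exact h
  · simp only [ZMod.natCast_zmod_val]
    exact hx.2

/-- An element of `Γ₀(M)` fixing the reduced generators lies in `± Γ₁(M)`. -/
theorem mem_gam_of_redExp_genInt (hR : HasRoots L R) (hL : (L : ℂ)⁻¹ ∈ R) (hML : M ∣ L)
    (hM : 5 < M) {δ : SL(2, ℤ)} (hδ : δ ∈ Gamma0 M)
    (h : ∀ (a b : ℕ), a < M → b < M → ∀ (ha : ¬ M ∣ a) (hb : ¬ M ∣ b),
      redExp L R ρ (δ • genInt hR hL hML ha hb) = redExp L R ρ (genInt hR hL hML ha hb)) :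
    δ ∈ gam M := by
  have h10 : ((δ 1 0 : ℤ) : ZMod M) = 0 := Gamma0_mem.mp hδ
  have hdet : ((δ 0 0 : ℤ) : ZMod M) * ((δ 1 1 : ℤ) : ZMod M) = 1 := by
    have h := congrArg (Int.cast : ℤ → ZMod M) δ.det_coe
    rw [Matrix.det_fin_two] at h
    push_cast at h
    rw [h10, mul_zero, sub_zero] at h
    exact h
  by_contra hne
  have hd1 : ((δ 1 1 : ℤ) : ZMod M) ≠ 1 := fun e => hne ⟨hδ, Or.inl e⟩
  have hd2 : ((δ 1 1 : ℤ) : ZMod M) ≠ -1 := fun e => hne ⟨hδ, Or.inr e⟩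
  obtain ⟨b, hbM, hb, hb1, hb2, hb3, hb4⟩ := exists_index hM ((δ 0 0 : ℤ) : ZMod M)
  have ha : ¬ M ∣ 1 := fun h => by have := Nat.le_of_dvd one_pos h; omega
  have e00 : (δ⁻¹ : SL(2, ℤ)) 0 0 = δ 1 1 := by
    rw [Matrix.SpecialLinearGroup.coe_inv, Matrix.adjugate_fin_two]
    rfl
  set a' : ℕ := ((δ 1 1 : ℤ) : ZMod M).val
  set b' : ℕ := ((b : ZMod M) * ((δ 1 1 : ℤ) : ZMod M)).val
  have ea' : (a' : ZMod M) = ((1 : ℕ) : ZMod M) * (((δ⁻¹ : SL(2, ℤ)) 0 0 : ℤ) : ZMod M) := by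
    simp [a', e00]
  have eb' : (b' : ZMod M) = (b : ZMod M) * (((δ⁻¹ : SL(2, ℤ)) 0 0 : ℤ) : ZMod M) := by
    simp [b', e00]
  have hu : IsUnit ((δ 1 1 : ℤ) : ZMod M) :=
    IsUnit.of_mul_eq_one _ (by rw [mul_comm]; exact hdet)
  have ha' : ¬ M ∣ a' := fun hd => by
    rw [← ZMod.natCast_eq_zero_iff, ea', e00, Nat.cast_one, one_mul] at hd
    have : Fact (1 < M) := ⟨by omega⟩
    simp [hd] at hdet
  have hb' : ¬ M ∣ b' := fun hd => by
    rw [← ZMod.natCast_eq_zero_iff, eb', e00, hu.mul_left_eq_zero, ZMod.natCast_eq_zero_iff] at hd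
    exact hb hd
  have hact : δ • genInt hR hL hML ha hb = genInt hR hL hML ha' hb' := by
    refine Subtype.ext (funext fun τ => ?_)
    rw [FermatAgent.Igusa.smul_apply]
    exact genLvl_smul hML (inv_mem hδ) ea' eb' τ
  have h1 := h 1 b (by omega) hbM ha hb
  rw [hact, redExp_genInt, redExp_genInt] at h1
  have h2 := congrArg (fun s : LaurentSeries k => s.coeff (-(M : ℤ) + 1)) (qExpand_injective L h1)
  simp only [coeff_genSer_lead k (by omega : 2 < M), map_sub, coeff_one_wpSer (by omega : 2 < M),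
    ea', eb', e00, Nat.cast_one, one_mul] at h2
  rw [if_neg (not_or.mpr ⟨hd1, hd2⟩), if_neg, if_pos (Or.inl trivial),
    if_neg (not_or.mpr ⟨hb1, hb2⟩)] at h2
  · simp at h2
  · rintro (e | e) <;> [apply hb3; apply hb4] <;>
      linear_combination ((δ 0 0 : ℤ) : ZMod M) * e - (b : ZMod M) * hdet

end FermatAgent.DeligneSerre.X1
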